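import Fermat.Agent.MazurPrinciple.Eigen
import Fermat.Agent.EigenSystems.FromForms

/-!
# `E[p]` inside the `p`-torsion of `J₀(N)`, over the prime field

If an irreducible `E[p]` is modular of level `N` and a Hecke polynomial `P` does not vanish at the
eigensystem, every nonzero point of `E[p]` has an equivariant image in an eigenspace of a
non-Eisenstein `T_ℓ` on `J₀(N)[p]` which `P` does not kill.
-/

set_option autoImplicit false

noncomputable section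

open IsLocalRing ModularCurve AlgebraicCurve Matrix Fermat.Agent.EigenRep
  Fermat.Agent.MazurPrinciple CongruenceSubgroup
open scoped WeierstrassCurve.Affine

namespace Fermat.Agent.Row39

local notation "Qbar" => AlgebraicClosure ℚ
local notation "Jtors" N:max n:max => Pic0.torsion (AlgebraicClosure ℚ) (modularFunctionFieldBar N) n

/-- Linear maps to the prime field commute with matrices over it. -/
theorem dual_comp_mulVec {F K : Type*} [Field F] [Field K] [Algebra F K] {d : ℕ}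
    (f : Module.Dual F K) (M : Matrix (Fin d) (Fin d) F) (w : Fin d → K) :
    ⇑f ∘ (M.map (algebraMap F K) *ᵥ w) = M *ᵥ (⇑f ∘ w) :=
  funext fun j => by simp [Matrix.mulVec, dotProduct, map_sum, ← Algebra.smul_def]

variable {p : ℕ} [Fact p.Prime] {W : WeierstrassCurve ℤ}

/-- **The points of a modular `E[p]` in `J₀(N)[p]`.** -/
theorem exists_eigen_map [(W.map (Int.castRingHom ℚ)).IsElliptic] (hp2 : p ≠ 2) (hΔ : W.Δ ≠ 0)
    (hirr : W.ModRepIsIrreducible p) {N : ℕ} [NeZero N]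
    (f : CuspForm (Gamma0 N) 2) (𝔪 : Ideal (integralClosure ℤ ℂ)) (hf : f.IsNormalizedEigenform)
    (h𝔪 : 𝔪.IsMaximal) (hp𝔪 : (p : integralClosure ℤ ℂ) ∈ 𝔪)
    (hcongr : ∀ ℓ : ℕ, ℓ.Prime → W.IsGoodPrimeFor ℓ → ¬ ℓ ∣ N → ℓ ≠ p →
      ∃ a : integralClosure ℤ ℂ, (a : ℂ) = ModularFormClass.qCoeff f ℓ ∧
        a - ((W.apOfModel ℓ : ℤ) : integralClosure ℤ ℂ) ∈ 𝔪)
    (a : Nat.Primes → integralClosure ℤ ℂ)
    (ha : ∀ r, (a r : ℂ) = ModularFormClass.qCoeff f (r : ℕ))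
    {N' : ℕ} (P : GoodHecke N')
    (hne : MvPolynomial.eval₂ (Int.castRingHom _) (fun r => Ideal.Quotient.mk 𝔪 (a r.1)) P ≠ 0) :
    ∃ (l : ℕ) (_ : NeZero l) (al : ℤ), l.Prime ∧ ¬ l ∣ N * p ∧ ¬ (p : ℤ) ∣ al - ((l : ℤ) + 1) ∧
      ∀ Q : Submodule.torsionBy ℤ ((W.map (Int.castRingHom ℚ))⁄Qbar).Point (p : ℤ), Q ≠ 0 →
        ∃ ξ : Submodule.torsionBy ℤ ((W.map (Int.castRingHom ℚ))⁄Qbar).Point (p : ℤ) →+ JZero N,
          (∀ (σ : Qbar ≃ₐ[ℚ] Qbar) R, ξ (σ • R) = σ • ξ R) ∧ (∀ R, p • ξ R = 0) ∧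
          (∀ R, heckeOperatorAlong Qbar N l (ξ R) = al • ξ R) ∧
          (letI := heckeModuleBar N; toHecke P • ξ Q) ≠ 0 := by
  classical
  have hp : p.Prime := Fact.out
  let K := integralClosure ℤ ℂ ⧸ 𝔪
  let : Field K := Ideal.Quotient.field 𝔪
  have : IsAlgClosed K := isAlgClosed_quotient 𝔪
  have : CharP K p := by
    refine (CharP.charP_iff_prime_eq_zero hp).mpr ?_
    rw [← map_natCast (Ideal.Quotient.mk 𝔪)]
    exact Ideal.Quotient.eq_zero_iff_mem.mpr hp𝔪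
  let I := Engine.TRep.levelInputs N p
  obtain ⟨g, hg⟩ := exists_eigenHom I.model hf
  let b : Nat.Primes → K := fun r => Ideal.Quotient.mk 𝔪 (a r)
  obtain ⟨v, hv, hvV⟩ := exists_eigenvector_family I ∅ ((Ideal.Quotient.mk 𝔪).comp g) b
    fun r => congrArg (Ideal.Quotient.mk 𝔪) (Subtype.ext ((ha r.1).trans (hg r).symm))
  set Ec := W.map (Int.castRingHom ℚ) with hEc
  have := EllTorsion.moduleFinite_torsionBy_rat Ec p
  let bb := Module.finBasisOfFinrankEq (ZMod p) _ (EllTorsion.finrank_torsionBy_rat Ec p)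
  let φ : ZMod p →+* K := ZMod.castHom dvd_rfl K
  let ρE := WeierstrassCurve.Affine.Point.galoisRepModuleEnd (K := Qbar) ℚ Ec p
  let N₀ : (Qbar ≃ₐ[ℚ] Qbar) →* Matrix (Fin 2) (Fin 2) (ZMod p) :=
    (LinearMap.toMatrixAlgEquiv bb).toAlgHom.toMonoidHom.comp ρE
  let N₁ : (Qbar ≃ₐ[ℚ] Qbar) →* Matrix (Fin 2) (Fin 2) K :=
    φ.mapMatrix.toMonoidHom.comp N₀
  have hspan₁ : Submodule.span K (Set.range N₁) = ⊤ := by
    refine LevelP.span_map_eq_top φ N₀ ?_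
    exact DefRing.span_range_eq_top_of_isAbsolutelyIrreducible (EllTorsion.residualRep Ec p)
      (BigImage.residual_isAbsolutelyIrreducible hp2 hirr) bb
  let t : (Qbar ≃ₐ[ℚ] Qbar) → K := fun g =>
    φ (WeierstrassCurve.Affine.Point.galoisTrace ℚ Ec p g)
  have htr₁ : ∀ g, Matrix.trace (N₁ g) = t g := fun g => by
    simp only [t, WeierstrassCurve.Affine.Point.galoisTrace_def]
    rw [LinearMap.trace_eq_matrix_trace (ZMod p) bb]
    exact (AddMonoidHom.map_trace φ.toAddMonoidHom (N₀ g)).symm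
  let ι := toCharP p K
  let V := eigenSub I.model (∅ : Set ℕ) b
  have : Nontrivial V := ⟨⟨v, hvV⟩, 0, fun h => hv (congrArg Subtype.val h)⟩
  let ρ : (Qbar ≃ₐ[ℚ] Qbar) →* Module.End K V :=
    { toFun := fun g => (galEnd I.model ι g).restrict
        fun v hv => galEnd_mem_eigenSub I.model ι I.equivariant g hv
      map_one' := by ext v; simp
      map_mul' := fun g k => by ext v; simp }
  let ε : (Qbar ≃ₐ[ℚ] Qbar) →* Kˣ := (Units.map ι.toMonoidHom).comp (epsilonPadic p)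
  have hfrob : ∀ (g : Qbar ≃ₐ[ℚ] Qbar) (T : Finset ℕ), ∃ (ℓ : ℕ) (hℓ : ℓ.Prime),
      ℓ ∉ T ∧ ¬ ℓ ∣ N * p ∧ t g = b ⟨ℓ, hℓ⟩ ∧ b ⟨ℓ, hℓ⟩ = ((W.apOfModel ℓ : ℤ) : K) ∧
      (ε g : K) = ℓ ∧ ρ g * ρ g - t g • ρ g + (ε g : K) • 1 = 0 := by
    intro g T
    obtain ⟨L₁, hL₁, H₁⟩ := exists_level I 1
    obtain ⟨L₂, hL₂, H₂⟩ :=
      EllTorsion.galoisFactorsThroughFiniteLevel_galoisRepModuleEnd Ec hp.ne_zero
    have hL := IntermediateField.finiteDimensional_sup L₁ L₂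
    obtain ⟨ℓ, hℓ, hℓS, A, hA, σ, hσ, hg⟩ :=
      I.dense (L₁ ⊔ L₂) hL g (W.Δ.natAbs.primeFactors ∪ T ∪ (N * p).primeFactors)
    rw [Finset.mem_union, Finset.mem_union, not_or, not_or] at hℓS
    have hd : ¬ ℓ ∣ N * p := fun h => hℓS.2 (Nat.mem_primeFactors.mpr
      ⟨hℓ, h, mul_ne_zero (NeZero.ne N) hp.ne_zero⟩)
    have : Fact ℓ.Prime := ⟨hℓ⟩
    have hℓp : ℓ ≠ p := fun h => hd (h ▸ dvd_mul_left p N)
    have hgood : W.IsGoodPrimeFor ℓ := fun h => hℓS.1.1 (Nat.mem_primeFactors.mpr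
      ⟨hℓ, Int.natCast_dvd.mp h, Int.natAbs_ne_zero.mpr hΔ⟩)
    obtain ⟨c, hc, hcm⟩ := hcongr ℓ hℓ hgood (fun h => hd (h.mul_right p)) hℓp
    have hbap : b ⟨ℓ, hℓ⟩ = ((W.apOfModel ℓ : ℤ) : K) := by
      obtain rfl : c = a ⟨ℓ, hℓ⟩ := Subtype.ext (hc.trans (ha ⟨ℓ, hℓ⟩).symm)
      rw [← map_intCast (Ideal.Quotient.mk 𝔪)]
      exact Ideal.Quotient.eq.mpr hcm
    have hτ := inv_mul_fixes hg
    have hgσ : g = σ * (σ⁻¹ * g) := (mul_inv_cancel_left σ g).symm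
    obtain ⟨hg₁, hg₂⟩ := H₁ _ fun x hx => hτ x (le_sup_left (a := L₁) (b := L₂) hx)
    have hg₃ : ρE (σ⁻¹ * g) = 1 := H₂ _ fun x hx => hτ x (le_sup_right (a := L₁) (b := L₂) hx)
    have e1 : ρ g = ρ σ := by
      ext v : 2
      show galEnd I.model ι g v = galEnd I.model ι σ v
      rw [galEnd_apply, galEnd_apply, map_eq_of_matMod_one ι (y := galMat I.model σ) ?_]
      rw [hgσ, map_mul, map_mul, hg₁, mul_one]
    have e2 : ε g = ε σ := Units.ext (map_eq_of_toZModPow_one ι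
      (by rw [hgσ, map_mul, Units.val_mul, map_mul, hg₂, mul_one]))
    have e3 : t g = b ⟨ℓ, hℓ⟩ := by
      rw [hbap, show t g = φ (WeierstrassCurve.Affine.Point.galoisTrace ℚ Ec p σ) by
        simp only [t, WeierstrassCurve.Affine.Point.galoisTrace_def]
        congr 2
        show ρE g = ρE σ
        rw [hgσ, map_mul, hg₃, mul_one],
        EllFrobenius.galoisTrace_eq_apOfModel W ℓ p hℓp hgood A σ hA hσ, map_intCast]
    have hεℓ : (ε σ : K) = ℓ := by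
      show ι _ = _
      rw [epsilon_frobenius hℓ hℓp hA hσ, map_natCast]
    refine ⟨ℓ, hℓ, hℓS.1.2, hd, e3, hbap, by rw [e2, hεℓ], ?_⟩
    rw [e1, e2, e3, hεℓ]
    ext v : 2
    simpa [ρ] using! galEnd_frobenius I.model ι I.es I.equivariant hℓ (by simp) hd hA hσ v.2
  obtain ⟨Φ, hΦ, hΦρ⟩ := LevelP.exists_intertwiner ρ ε t (fun g => by
    obtain ⟨-, -, -, -, -, -, -, h⟩ := hfrob g ∅
    exact h) N₁ htr₁ hspan₁
  -- a non-Eisenstein prime
  obtain ⟨l, hl, hlN, hlb, hlne⟩ : ∃ (l : ℕ) (hl : l.Prime), ¬ l ∣ N * p ∧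
      b ⟨l, hl⟩ = ((W.apOfModel l : ℤ) : K) ∧ b ⟨l, hl⟩ ≠ (l : K) + 1 := by
    by_contra hcon
    push Not at hcon
    obtain ⟨u, hu⟩ := Chebotarev.exists_conj_of_trace_eq N₁ (diagRep 1 ε) (fun g => by
      obtain ⟨ℓ, hℓ, -, hd, h1, h2, h3, -⟩ := hfrob g ∅
      rw [htr₁, h1, hcon ℓ hℓ hd h2]
      simp [diagRep, Matrix.trace_diagonal, Fin.sum_univ_two, h3, add_comm]) hspan₁
    exact LevelP.not_diagonal_of_span N₁ _ u hu hspan₁
  have : NeZero l := ⟨hl.ne_zero⟩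
  refine ⟨l, inferInstance, W.apOfModel l, hl, hlN, fun h => hlne ?_, fun Q hQ => ?_⟩
  · have h1 := (CharP.intCast_eq_zero_iff K p _).mpr h
    push_cast at h1
    rwa [← hlb, sub_eq_zero] at h1
  -- descent to the prime field
  obtain ⟨E, hE, hEv⟩ := exists_heckeMatrix I b P
  let φ₁ : ZMod (p ^ 1) →+* K := ZMod.castHom (dvd_pow_self p one_ne_zero) K
  let := φ₁.toAlgebra
  have : Fact (p ^ 1).Prime := ⟨by rwa [pow_one]⟩
  let j : Submodule.torsionBy ℤ (Ec⁄Qbar).Point (p : ℤ) →+ (Fin I.model.d → K) :=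
    AddMonoidHom.mk' (fun R => (Φ (⇑φ ∘ ⇑(bb.repr R)) : Fin I.model.d → K)) fun R R' => by
      rw [← Submodule.coe_add, ← map_add]
      congr 2
      funext i
      simp
  have hjV : ∀ R, j R ∈ V := fun R => (Φ _).2
  have hjQ : j Q ≠ 0 := fun h => hQ <| bb.repr.injective <| by
    have h1 : (⇑φ ∘ ⇑(bb.repr Q)) = 0 := hΦ ((Subtype.ext h).trans (map_zero Φ).symm)
    rw [map_zero]
    exact Finsupp.ext fun i => φ.injective (by simpa using congrFun h1 i)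
  obtain ⟨k, hk⟩ := Function.ne_iff.mp hjQ
  have hk' : MvPolynomial.eval₂ (Int.castRingHom K) (fun r => b r.1) P * j Q k ≠ 0 :=
    mul_ne_zero hne hk
  obtain ⟨fd, hfd⟩ : ∃ fd : Module.Dual (ZMod (p ^ 1)) K,
      fd (MvPolynomial.eval₂ (Int.castRingHom K) (fun r => b r.1) P * j Q k) ≠ 0 := by
    by_contra! hh
    exact hk' ((Module.forall_dual_apply_eq_zero_iff _ _).mp hh)
  let ξ₁ : Submodule.torsionBy ℤ (Ec⁄Qbar).Point (p : ℤ) →+ Jtors N (p ^ 1) :=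
    AddMonoidHom.mk' (fun R => (I.model.e 1).symm (⇑fd ∘ j R)) fun R R' => by
      rw [← map_add]
      congr 1
      funext i
      simp
  have hξe : ∀ R, I.model.e 1 (ξ₁ R) = ⇑fd ∘ j R := fun R =>
    (I.model.e 1).apply_symm_apply _
  have hmat : ∀ σ, (levelMat I.model 1 σ).map φ₁ = (galMat I.model σ).map ι := by
    intro σ
    ext i j
    rw [Matrix.map_apply, Matrix.map_apply, ← matMod_galMat, matMod_apply]
    set z := galMat I.model σ i j
    rw [map_eq_of_toZModPow_one ι (y := ((PadicInt.toZModPow 1 z).val : ℤ_[p]))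
      (by rw [map_natCast, ZMod.natCast_zmod_val]), map_natCast, ← map_natCast φ₁,
      ZMod.natCast_zmod_val]
  refine ⟨(Jtors N (p ^ 1)).subtype.comp ξ₁, fun σ R => ?_, fun R => ?_, fun R => ?_, ?_⟩
  · refine (congrArg Subtype.val (a₁ := ξ₁ (σ • R))
      (a₂ := JZero.torsionGaloisRep N (p ^ 1) σ (ξ₁ R)) ?_).trans
        (JZero.coe_torsionGaloisRep_apply ..)
    refine (I.model.e 1).injective ?_
    rw [hξe, ← levelMat_mulVec, hξe, ← dual_comp_mulVec, RingHom.algebraMap_toAlgebra, hmat,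
      ← galEnd_apply]
    refine congrArg (⇑fd ∘ ·) ?_
    show (Φ _ : Fin I.model.d → K) = galEnd I.model ι σ (Φ _)
    rw [show galEnd I.model ι σ (Φ (⇑φ ∘ ⇑(bb.repr R))) = _ from
      congrArg Subtype.val (hΦρ σ (⇑φ ∘ ⇑(bb.repr R)))]
    congr 2
    have h0 : N₀ σ *ᵥ ⇑(bb.repr R) = ⇑(bb.repr (σ • R)) := by
      show LinearMap.toMatrix bb bb (ρE σ) *ᵥ _ = _
      rw [LinearMap.toMatrix_mulVec_repr]
      rfl
    funext i
    show φ (bb.repr (σ • R) i) = ((N₀ σ).map φ *ᵥ (⇑φ ∘ ⇑(bb.repr R))) i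
    rw [← h0]
    exact RingHom.map_mulVec φ (N₀ σ) _ i
  · have h1 := Pic0.mem_torsion.mp (ξ₁ R).2
    rw [natCast_zsmul] at h1
    exact (congrArg (· • ((ξ₁ R : Jtors N (p ^ 1)) : JZero N)) (pow_one p)).symm.trans h1
  · refine (congrArg Subtype.val (a₁ := heckeTors (p ^ 1) ⟨l, hl⟩ (ξ₁ R))
      (a₂ := W.apOfModel l • ξ₁ R) ?_).trans (AddSubgroupClass.coe_zsmul _ _)
    refine (I.model.e 1).injective ?_
    have hint : ∀ M : Matrix (Fin I.model.d) (Fin I.model.d) ℤ,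
        (M.map (Int.cast : ℤ → ZMod (p ^ 1))).map φ₁ = M.map (Int.cast : ℤ → K) := fun M => by
      ext i j
      simp
    rw [I.model.e_hecke 1 ⟨l, hl⟩ (ξ₁ R) _ rfl, map_zsmul, hξe, ← dual_comp_mulVec,
      RingHom.algebraMap_toAlgebra, hint,
      (mem_eigenSub I.model).mp (hjV R) ⟨l, hl⟩ (Set.notMem_empty _), hlb]
    funext i
    show fd (((W.apOfModel l : ℤ) : K) * j R i) = W.apOfModel l • fd (j R i)
    rw [← zsmul_eq_mul, map_zsmul]
  · intro h0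
    have h2 := hE (ξ₁ Q) 0 ((ZeroMemClass.coe_zero _).trans h0.symm)
    rw [map_zero, hξe, ← dual_comp_mulVec, RingHom.algebraMap_toAlgebra, hEv _ (hjV Q)] at h2
    exact hfd (congrFun h2 k).symm

end Fermat.Agent.Row39

end
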