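import Fermat.Agent.LevelP.Kummer
import Fermat.Agent.EllLocal.Tate
import Fermat.Prelude.Def_WeierstrassCurve_PeuRamifiee

/-!
# A fixed point of the stabiliser of a Kummer generator, multiplicative reduction

When the model is multiplicative at `p` and `p` divides the valuation of the discriminant, inertia
acts on the `p`-torsion through the roots of unity and a root of a unit, so the stabiliser of a
Kummer generator fixes a nonzero point.
-/

set_option autoImplicit false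

noncomputable section

open WeierstrassCurve
open scoped WeierstrassCurve.Affine

namespace Fermat.Agent.Row39

open FlatJ0 EllLocal

local notation "Ω" => AlgebraicClosure ℚ

variable {W : WeierstrassCurve ℤ} {A : ValuationSubring Ω} {p : ℕ} [hpF : Fact p.Prime]

local notation "E" => PtQ (W.map (Int.castRingHom ℚ))

omit hpF in
/-- Peu ramifié at `p`, read on the integral model. -/
theorem dvd_padicValInt_of_peu (h : (W.map (Int.castRingHom ℚ)).IsPeuRamifieeAt p p) :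
    p ∣ padicValInt p W.Δ := by
  unfold WeierstrassCurve.IsPeuRamifieeAt at h
  rw [WeierstrassCurve.map_Δ, eq_intCast, padicValRat.of_int] at h
  exact_mod_cast h

/-- **A point of `E[p]` fixed by the stabiliser of a Kummer generator**, multiplicative reduction. -/
theorem exists_fixed_point_mult (hA : A.LiesOverPrime p) (hΔ : W.Δ ≠ 0) (hdvd : (p : ℤ) ∣ W.Δ)
    (hc₄ : ¬ (p : ℤ) ∣ W.c₄) (hp3 : 3 ≤ p)
    (hpeu : (W.map (Int.castRingHom ℚ)).IsPeuRamifieeAt p p) :
    ∃ K : LevelP.KummerGen A p, ∃ Q : E, Q ≠ 0 ∧ p • Q = 0 ∧ ∀ σ ∈ K.H, σ • Q = Q := by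
  have hp : p.Prime := Fact.out
  have : NeZero p := ⟨hp.ne_zero⟩
  have hIO : IsOver A p := ⟨hp, hA⟩
  have hM : EllLocal.Mult.IsMultAt W A p := ⟨hp, hA, hΔ, hdvd, hc₄⟩
  obtain ⟨ζ, hζ⟩ := HasEnoughRootsOfUnity.exists_primitiveRoot Ω p
  obtain ⟨P₁, P₂, z, hP₁, hP₂, -, h0, hn0, hgen, hz1, hzℓ, hc⟩ :=
    EllLocal.Mult.exists_inertia_kummer hM hp (by omega) (dvd_padicValInt_of_peu hpeu) hζ
  have hz : z ≠ 0 := A.valuation.ne_zero_iff.1 (by rw [hz1]; exact one_ne_zero)
  have hz0 : ord A p z = 0 := by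
    rw [← hIO.ord_one, ← hIO.valuation_eq_iff hz one_ne_zero, hz1, map_one]
  have hP₂0 : P₂ ≠ 0 := fun h => hn0 (h ▸ Or.inl rfl)
  rcases LevelP.kummer_dichotomy hIO hp3 hζ hz hz0 hzℓ with ⟨j, hj⟩ | ⟨K, hK⟩
  · obtain ⟨K⟩ := LevelP.exists_kummerGen hIO
    refine ⟨K, P₂ + j • P₁, fun e => ?_, by rw [nsmul_add, hP₂, smul_comm, hP₁, nsmul_zero,
      add_zero], fun σ hσ => ?_⟩
    · refine hn0 ((EllLocal.Mult.mem_e0Sub hM).mp ?_)
      rw [eq_neg_of_add_eq_zero_left e]
      exact neg_mem (nsmul_mem ((EllLocal.Mult.mem_e0Sub _).mpr h0) _)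
    obtain ⟨a, c, ha, h1, h2, h3⟩ := hc σ hσ.1
    have hmod : j * a + c ≡ j [MOD p] := by
      have h := hj σ hσ.1
      rw [map_mul, map_pow, ha, h3, ← mul_assoc, ← pow_mul, ← pow_add] at h
      have h' := ((hζ.isOfFinOrder hp.ne_zero).pow_eq_pow_iff_modEq).1 (mul_right_cancel₀ hz h)
      rw [← hζ.eq_orderOf, mul_comm a] at h'
      exact h'
    simp only [WeierstrassCurve.Affine.Point.algEquiv_smul_def, map_add, map_nsmul] at h1 h2 ⊢
    rw [h1, h2, add_assoc, smul_smul, ← add_nsmul, nsmul_eq_mod_nsmul (c + j * a) hP₁,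
      nsmul_eq_mod_nsmul j hP₁, add_comm c, hmod]
  · refine ⟨K, P₂, hP₂0, hP₂, fun σ hσ => ?_⟩
    obtain ⟨a, c, -, -, h2, h3⟩ := hc σ hσ.1
    obtain ⟨d, rfl⟩ : p ∣ c := by
      rw [← hζ.pow_eq_one_iff_dvd]
      exact mul_right_cancel₀ hz (by rw [← h3, one_mul, ← hK, hσ.2])
    rwa [mul_comm, mul_nsmul', hP₁, nsmul_zero, add_zero] at h2

end Fermat.Agent.Row39

end
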