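import Fermat.Agent.Row39.Kill
import Fermat.Agent.Row39.EigenMap
import Fermat.Agent.Row39.Descent
import Fermat.Agent.Row39.FixedMult
import Fermat.Agent.General.GoodPrime.Point
import Fermat.Agent.EllLocal.Supersingular

/-!
# Removing `p` from the level of a residual eigensystem

An irreducible `E[p]` which is peu ramifié at `p`, multiplicative or good, and modular of level
`M p`, `p ∤ M`, is modular of level `M`: a Hecke polynomial killing the `p`-power torsion of
`J₀(M)` kills a point of `E[p]` fixed by a Kummer stabiliser, and where there is none inertia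
would stabilise a line.
-/

set_option autoImplicit false

noncomputable section

open IsLocalRing ModularCurve AlgebraicCurve Fermat.Agent.SemistableRed Fermat.Agent.MazurPrinciple
open scoped WeierstrassCurve.Affine

namespace Fermat.Agent.Row39

local notation "Qbar" => AlgebraicClosure ℚ

variable {p : ℕ} [Fact p.Prime] {W : WeierstrassCurve ℤ}

local notation "E" => EllLocal.PtQ (W.map (Int.castRingHom ℚ))

/-- What is used of the local behaviour at `p`. -/
def LocalAt (W : WeierstrassCurve ℤ) (p : ℕ) (A : ValuationSubring (AlgebraicClosure ℚ)) : Prop :=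
  (∃ K : LevelP.KummerGen A p, ∃ Q : EllLocal.PtQ (W.map (Int.castRingHom ℚ)),
      Q ≠ 0 ∧ p • Q = 0 ∧ ∀ σ ∈ K.H, σ • Q = Q) ∨
    ∀ Q : EllLocal.PtQ (W.map (Int.castRingHom ℚ)), p • Q = 0 → Q ≠ 0 →
      ∃ σ ∈ A.inertiaSubgroupIn ℚ, ∀ c : ℕ, σ • Q ≠ c • Q

/-- **The eigensystem factors through level `M`.** -/
theorem isResiduallyModularOfLevel_of_localAt (hp3 : 3 ≤ p) (hΔ : W.Δ ≠ 0)
    (hirr : W.ModRepIsIrreducible p) {M : ℕ} [NeZero M] (hpM : ¬ p ∣ M)
    (hloc : ∀ A : ValuationSubring Qbar, A.LiesOverPrime p → LocalAt W p A)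
    (hmod : W.IsResiduallyModularOfLevel p (M * p)) : W.IsResiduallyModularOfLevel p M := by
  classical
  have hp : p.Prime := Fact.out
  have : NeZero p := ⟨hp.ne_zero⟩
  have : (W.map (Int.castRingHom ℚ)).IsElliptic := ⟨isUnit_iff_ne_zero.mpr (by
    rw [WeierstrassCurve.map_Δ]; simpa using hΔ)⟩
  obtain ⟨f, 𝔪, hf, h𝔪, hp𝔪, hcongr⟩ := hmod
  let a : Nat.Primes → integralClosure ℤ ℂ := fun r =>
    ⟨ModularFormClass.qCoeff f (r : ℕ), EigenSystems.isIntegral_qCoeff hf _⟩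
  refine isResiduallyModularOfLevel_of_killed hΔ hp f 𝔪 h𝔪 hp𝔪 hcongr a (fun _ => rfl) fun P hP => ?_
  by_contra hne
  obtain ⟨l, hl0, al, hl, hlN, hal, hξ⟩ :=
    exists_eigen_map (by omega) hΔ hirr f 𝔪 hf h𝔪 hp𝔪 hcongr a (fun _ => rfl) P hne
  have hlN' : ¬ l ∣ M * p := fun h => hlN (h.mul_right p)
  obtain ⟨A, hA⟩ := Frobenius.exists_liesOverPrime Qbar hp
  have := Reduction.charP_residueField hA
  have : IsAlgClosed (ResidueField A) := Reduction.isAlgClosed_residueField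
  let S : Setting A M p := ⟨hpM, hA, ⟨_, IgusaGenus.reductionFacts hpM hA⟩⟩
  have := S.isFunctionField_C
  have : HasPrincipalDivisors (ResidueField A) (modularFunctionFieldFullC (ResidueField A) M) :=
    FunctionFieldRR.hasPrincipalDivisors
  have : CharP (modularFunctionFieldFullC (ResidueField A) M) p :=
    charP_of_injective_algebraMap (algebraMap (ResidueField A) _).injective p
  have mk : ∀ Q : E, p • Q = 0 → Q ∈ Submodule.torsionBy ℤ E (p : ℤ) := fun Q h => by
    rw [Submodule.mem_torsionBy_iff, natCast_zsmul]; exact h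
  rcases hloc A hA with ⟨K, Q, hQ0, hQp, hQfix⟩ | hline
  · obtain ⟨ξ, heq, hp0, hT, hne0⟩ := hξ ⟨Q, mk Q hQp⟩ fun h => hQ0 (congrArg Subtype.val h)
    refine hne0 (heckePoly_eq_zero_of_fixed S K hp3 (hp0 _)
      (fun σ hσ => ?_) hl hlN' (hT _) hal P hP)
    rw [← heq]
    exact congrArg ξ (Subtype.ext (hQfix σ hσ))
  -- no line is stable under inertia
  obtain ⟨ζ, hζ⟩ := HasEnoughRootsOfUnity.exists_primitiveRoot Qbar p
  have hw : ∀ σ : Qbar ≃ₐ[ℚ] Qbar, ∃ w : ℕ, σ ζ = ζ ^ w := fun σ => by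
    obtain ⟨w, -, h⟩ := hζ.eq_pow_of_pow_eq_one
      (show σ ζ ^ p = 1 by rw [← map_pow, hζ.pow_eq_one, map_one])
    exact ⟨w, h.symm⟩
  obtain ⟨Q, hQ0⟩ : ∃ Q : Submodule.torsionBy ℤ E (p : ℤ), Q ≠ 0 := by
    have := EllTorsion.finite_torsionBy_baseChange (W.map (Int.castRingHom ℚ)) Qbar hp.ne_zero
    have : Nontrivial (Submodule.torsionBy ℤ E (p : ℤ)) := by
      rw [← Finite.one_lt_card_iff_nontrivial,
        EllTorsion.natCard_torsionBy_baseChange (W.map (Int.castRingHom ℚ)) Qbar p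
          (Nat.cast_ne_zero.2 hp.ne_zero)]
      exact Nat.one_lt_pow two_ne_zero hp.one_lt
    exact exists_ne 0
  have htp : ∀ R : Submodule.torsionBy ℤ E (p : ℤ), p • (R : E) = 0 := fun R => by
    have h := (Submodule.mem_torsionBy_iff _ _).mp R.2
    rwa [natCast_zsmul] at h
  obtain ⟨τ, hτ, hτQ⟩ := hline Q (htp Q) fun h => hQ0 (Subtype.ext h)
  obtain ⟨σ, hσ, hσQ⟩ := hline ((τ • Q - Q : Submodule.torsionBy ℤ E (p : ℤ)) : E) (htp _)
    fun h => hτQ 1 (by
      rw [one_nsmul]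
      exact congrArg Subtype.val (sub_eq_zero.mp (Subtype.ext h : τ • Q - Q = 0)))
  obtain ⟨w, hw⟩ := hw σ
  obtain ⟨ξ, heq, hp0, hT, hne0⟩ := hξ (σ • (τ • Q - Q) - w • (τ • Q - Q)) fun h =>
    hσQ w (congrArg Subtype.val (sub_eq_zero.mp h))
  have h := smul_heckePoly_sub_eq S (hp0 Q) hl hlN' (hT Q) hal P hP hτ hσ hζ hw
  apply hne0
  let := heckeModuleBar (M * p)
  rw [← heq, ← map_sub] at h
  rw [map_sub ξ, map_nsmul, heq, smul_sub, smul_comm (toHecke P) w, General.GoodPrime.hecke_galois,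
    h, sub_self]

/-- Good reduction at `p`. -/
theorem localAt_of_good (hp3 : 3 ≤ p) (hΔ : W.Δ ≠ 0) (hgood : W.IsGoodPrimeFor p)
    {A : ValuationSubring Qbar} (hA : A.LiesOverPrime p) : LocalAt W p A := by
  have : (W.map (Int.castRingHom ℚ)).IsElliptic := ⟨isUnit_iff_ne_zero.mpr (by
    rw [WeierstrassCurve.map_Δ]; simpa using hΔ)⟩
  by_cases hord : EllLocal.IsGoodOrdinary W p
  · exact Or.inl (General.GoodPrime.exists_fixed_point_ordinary hA hp3 hgood hord)
  · exact Or.inr fun Q hQ hQ0 => EllLocal.no_inertia_stable_line hA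
      ((Fact.out : p.Prime).odd_of_ne_two (by omega)) ⟨hgood, hord⟩ hQ hQ0

/-- Good or multiplicative and peu ramifié at `p`. -/
theorem localAt_of_peu (hp3 : 3 ≤ p) (hΔ : W.Δ ≠ 0)
    (hsemi : (p : ℤ) ∣ W.Δ → ¬ (p : ℤ) ∣ W.c₄)
    (hpeu : (W.map (Int.castRingHom ℚ)).IsPeuRamifieeAt p p)
    {A : ValuationSubring Qbar} (hA : A.LiesOverPrime p) : LocalAt W p A := by
  by_cases h : (p : ℤ) ∣ W.Δ
  · exact Or.inl (exists_fixed_point_mult hA hΔ h (hsemi h) hp3 hpeu)
  · exact localAt_of_good hp3 hΔ h hA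

end Fermat.Agent.Row39

end
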