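import Fermat.Agent.MazurPrinciple.TDiv
import Fermat.Agent.HeckeJ0.Model
import Fermat.Agent.X0Analytic.Ramification

/-!
# `T_l` at an unramified point over `j = 0`, modulo three

At a simple zero of `j` on `X₀(N)` the divisor `T_l P` is congruent to `(l + 1) P` modulo `3`: the
places above `P` on `X₀(N l)` either have ramification index `3` or map back to `P`.
-/

set_option autoImplicit false

noncomputable section

open AlgebraicCurve ModularCurve Fermat.Agent.X0Analytic
open UpperHalfPlane (ofComplex)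
open scoped MatrixGroups UpperHalfPlane Topology ComplexConjugate

namespace Fermat.Agent.Row39

local notation "Qbar" => AlgebraicClosure ℚ

open Gamma0Count (CosetSpace)

/-! ### Orders under a fractional linear change of variable -/

theorem chart_moebius (g : GL (Fin 2) ℝ) (hg : 0 < g.det.val) (τ : ℍ) :
    ∃ ζ : ℂ, ζ ≠ 0 ∧ ∀ t ∈ Metric.ball (0 : ℂ) 1,
      g • ofComplex (chart τ t) = ofComplex (chart (g • τ) (ζ * t)) := by
  set a : ℂ := ((g 0 0 : ℝ) : ℂ) with ha
  set b : ℂ := ((g 0 1 : ℝ) : ℂ) with hb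
  set c : ℂ := ((g 1 0 : ℝ) : ℂ) with hc
  set d : ℂ := ((g 1 1 : ℝ) : ℂ) with hd
  set z : ℂ := (τ : ℂ) with hz
  have hD : c * z + d ≠ 0 := UpperHalfPlane.denom_ne_zero g τ
  have hD' : c * conj z + d ≠ 0 := by
    have h := (map_ne_zero (starRingEnd ℂ)).mpr hD
    rwa [map_add, map_mul, hc, hd, Complex.conj_ofReal, Complex.conj_ofReal] at h
  refine ⟨(c * conj z + d) / (c * z + d), div_ne_zero hD' hD, fun t ht => ?_⟩
  have h1 := one_sub_ne_zero_of_mem ht
  have hgt : ((g • τ : ℍ) : ℂ) = (a * z + b) / (c * z + d) :=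
    UpperHalfPlane.coe_smul_of_det_pos hg τ
  have hgc : conj ((g • τ : ℍ) : ℂ) = (a * conj z + b) / (c * conj z + d) := by
    rw [hgt, map_div₀, map_add, map_add, map_mul, map_mul, ha, hb, hc, hd, Complex.conj_ofReal,
      Complex.conj_ofReal, Complex.conj_ofReal, Complex.conj_ofReal]
  have hpt : ((g • ofComplex (chart τ t) : ℍ) : ℂ) =
      (a * chart τ t + b) / (c * chart τ t + d) := by
    rw [UpperHalfPlane.coe_smul_of_det_pos hg,
      UpperHalfPlane.ofComplex_apply_of_im_pos (im_chart_pos τ ht)]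
    rfl
  have key : chart (g • τ) ((c * conj z + d) / (c * z + d) * t) =
      ((g • ofComplex (chart τ t) : ℍ) : ℂ) := by
    rw [hpt]
    have e1 : a * chart τ t + b = (a * z + b - (a * conj z + b) * t) / (1 - t) := by
      rw [chart, eq_div_iff h1, add_mul, mul_assoc, div_mul_cancel₀ _ h1]
      ring
    have e2 : c * chart τ t + d = (c * z + d - (c * conj z + d) * t) / (1 - t) := by
      rw [chart, eq_div_iff h1, add_mul, mul_assoc, div_mul_cancel₀ _ h1]
      ring
    rw [e1, e2, div_div_div_cancel_right₀ h1, chart, hgc, hgt]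
    rw [show (a * z + b) / (c * z + d) -
        (a * conj z + b) / (c * conj z + d) * ((c * conj z + d) / (c * z + d) * t) =
      (a * z + b - (a * conj z + b) * t) / (c * z + d) by field_simp]
    rw [show 1 - (c * conj z + d) / (c * z + d) * t =
      (c * z + d - (c * conj z + d) * t) / (c * z + d) by field_simp]
    rw [div_div_div_cancel_right₀ hD]
  rw [key]
  exact (UpperHalfPlane.ofComplex_apply _).symm

/-- The order at `τ` of `f ∘ g` is the order at `g τ` of `f`. -/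
theorem order_tay_preComp (g : GL (Fin 2) ℝ) (hg : 0 < g.det.val) (τ : ℍ) (f : Hol) :
    (psL (tayHom τ (preComp g hg f))).order = (psL (tayHom (g • τ) f)).order := by
  obtain ⟨ζ, hζ, h⟩ := chart_moebius g hg τ
  have hco : ∀ n, (tayHom τ (preComp g hg f)).coeff n = ζ ^ n * (tayHom (g • τ) f).coeff n := by
    intro n
    rw [tayHom_apply, tayHom_apply, coeff_taylorPS, coeff_taylorPS]
    have hev : ((preComp g hg f : Hol) : ℍ → ℂ) ∘ ofComplex ∘ chart τ =ᶠ[𝓝 0]
        fun t => ((f : ℍ → ℂ) ∘ ofComplex ∘ chart (g • τ)) (ζ * t) := by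
      filter_upwards [Metric.ball_mem_nhds (0 : ℂ) one_pos] with t ht
      show (f : ℍ → ℂ) (g • ofComplex (chart τ t)) = _
      rw [h t ht]
      rfl
    rw [hev.iteratedDeriv_eq n, iteratedDeriv_comp_mul_field, mul_zero]
    ring
  rw [rot_psL_coeff hζ hco]
  by_cases hF : psL (tayHom (g • τ) f) = 0
  · rw [hF, map_zero]
  · exact order_rot hζ hF

/-! ### A matrix of determinant `l` fixing an elliptic point -/

theorem zmod_two_ne : ∀ z : ZMod 2, z ^ 2 - z + 1 ≠ 0 := by decide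

theorem zmod_two_zero : ∀ u v : ZMod 2, u ^ 2 + u * v + v ^ 2 = 0 → u = 0 ∧ v = 0 := by decide

theorem exists_thue {l : ℕ} (hl : l.Prime) (a : ℤ) (ha : (l : ℤ) ∣ a ^ 2 - a + 1) :
    ∃ x y : ℤ, x ^ 2 + x * y + y ^ 2 = (l : ℤ) ∧ (l : ℤ) ∣ x + y * a := by
  have := Fact.mk hl
  have hl2 : l ≠ 2 := by
    rintro rfl
    have h := (ZMod.intCast_zmod_eq_zero_iff_dvd _ 2).mpr ha
    push_cast at h
    exact zmod_two_ne _ h
  set k := Nat.sqrt l with hk
  have hk1 : k * k ≤ l := Nat.sqrt_le l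
  have hk2 : l < (k + 1) * (k + 1) := Nat.lt_succ_sqrt l
  have hk3 : k * k < l := by
    refine lt_of_le_of_ne hk1 fun h => ?_
    rw [← h, Nat.prime_mul_iff] at hl
    rcases hl with ⟨hp, h1⟩ | ⟨hp, h1⟩ <;> exact hp.one_lt.ne' h1
  let f : Fin (k + 1) × Fin (k + 1) → ZMod l := fun p => ((p.1 : ℕ) : ZMod l) + (p.2 : ℕ) * (a : ZMod l)
  obtain ⟨p, q, hpq, he⟩ := Fintype.exists_ne_map_eq_of_card_lt f (by
    rw [ZMod.card, Fintype.card_prod, Fintype.card_fin]; exact hk2)
  set x : ℤ := ((p.1 : ℕ) : ℤ) - (q.1 : ℕ) with hx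
  set y : ℤ := ((p.2 : ℕ) : ℤ) - (q.2 : ℕ) with hy
  have hdvd : (l : ℤ) ∣ x + y * a := by
    rw [← ZMod.intCast_zmod_eq_zero_iff_dvd]
    simp only [hx, hy]
    push_cast
    simp only [f] at he
    linear_combination he
  refine ⟨x, y, ?_, hdvd⟩
  have hQl : (l : ℤ) ∣ x ^ 2 + x * y + y ^ 2 := by
    have : x ^ 2 + x * y + y ^ 2 =
        (x + y * a) * (x + (1 - a) * y) + (a ^ 2 - a + 1) * y ^ 2 := by ring
    rw [this]
    exact dvd_add (hdvd.mul_right _) (ha.mul_right _)
  have hne : ¬(x = 0 ∧ y = 0) := by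
    rintro ⟨h1, h2⟩
    exact hpq (Prod.ext (Fin.ext (by omega)) (Fin.ext (by omega)))
  have hpos : 0 < x ^ 2 + x * y + y ^ 2 := by
    by_contra h
    push Not at h
    have hy0 : y = 0 := by nlinarith [sq_nonneg (2 * x + y), sq_nonneg y]
    have hx0 : x = 0 := by rw [hy0] at h; nlinarith [sq_nonneg x]
    exact hne ⟨hx0, hy0⟩
  have hxk : -(k : ℤ) ≤ x ∧ x ≤ k := by omega
  have hyk : -(k : ℤ) ≤ y ∧ y ≤ k := by omega
  have hk3' : (k : ℤ) * k < l := by exact_mod_cast hk3
  have hlt : x ^ 2 + x * y + y ^ 2 < 3 * (l : ℤ) := by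
    nlinarith [mul_nonneg (sub_nonneg.mpr hxk.1) (sub_nonneg.mpr hxk.2),
      mul_nonneg (sub_nonneg.mpr hyk.1) (sub_nonneg.mpr hyk.2), sq_nonneg (x - y)]
  obtain ⟨t, ht⟩ := hQl
  have hl0 : (0 : ℤ) < l := by exact_mod_cast hl.pos
  have ht1 : 0 < t := pos_of_mul_pos_right (ht ▸ hpos) hl0.le
  have ht3 : t < 3 := lt_of_mul_lt_mul_left (by rw [← ht]; linarith) hl0.le
  interval_cases t
  · linarith
  · exfalso
    have h2 : ((x : ZMod 2)) ^ 2 + (x : ZMod 2) * y + (y : ZMod 2) ^ 2 = 0 := by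
      have h := congrArg (fun z : ℤ => (z : ZMod 2)) ht
      push_cast at h
      rw [h, show (2 : ZMod 2) = 0 by decide, mul_zero]
    obtain ⟨hx2, hy2⟩ := zmod_two_zero _ _ h2
    rw [ZMod.intCast_zmod_eq_zero_iff_dvd] at hx2 hy2
    obtain ⟨x', hx'⟩ := hx2
    obtain ⟨y', hy'⟩ := hy2
    push_cast at hx' hy'
    rw [hx', hy'] at ht
    have h2l : (2 : ℤ) ∣ l := ⟨x' ^ 2 + x' * y' + y' ^ 2, by linarith⟩
    exact hl2 ((Nat.prime_dvd_prime_iff_eq Nat.prime_two hl).mp (by exact_mod_cast h2l)).symm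

/-- An element of `Γ₀(N l)` of trace one fixing `τ` gives `δ ∈ Γ₀(N)` with `δ (l τ) = τ`. -/
theorem exists_mem_Gamma0_smul_scale {N l : ℕ} [NeZero l] (hl : l.Prime) {γ : SL(2, ℤ)}
    (hγ : γ ∈ CongruenceSubgroup.Gamma0 (N * l)) (htr : γ 0 0 + γ 1 1 = 1) {τ : ℍ}
    (hfix : γ • τ = τ) :
    ∃ δ ∈ CongruenceSubgroup.Gamma0 N, δ • (scaleGL l • τ) = τ := by
  set a := γ 0 0 with ha
  set b := γ 0 1 with hb
  set c := γ 1 0 with hc
  set d := γ 1 1 with hd
  have hdet : a * d - b * c = 1 := by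
    have h := γ.det_coe
    rwa [Matrix.det_fin_two] at h
  rw [CongruenceSubgroup.Gamma0_mem, ZMod.intCast_zmod_eq_zero_iff_dvd] at hγ
  obtain ⟨m, hm⟩ := hγ
  change c = _ at hm
  push_cast at hm
  obtain ⟨x, y, hQ, u, hu⟩ := exists_thue hl a ⟨-(b * (N * m)), by
    linear_combination (-1 : ℤ) * hdet + a * htr - b * hm⟩
  have hl0 : (l : ℤ) ≠ 0 := by exact_mod_cast hl.ne_zero
  let δ : SL(2, ℤ) := ⟨!![u, y * b; y * (N * m), x + y * d], by
    rw [Matrix.det_fin_two_of]
    apply mul_left_cancel₀ hl0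
    linear_combination (-(x + y * d)) * hu + hQ + x * y * htr + y ^ 2 * hdet + b * y ^ 2 * hm⟩
  refine ⟨δ, ?_, ?_⟩
  · rw [CongruenceSubgroup.Gamma0_mem, ZMod.intCast_zmod_eq_zero_iff_dvd]
    exact ⟨y * m, by show y * (N * m) = _; ring⟩
  · have hden : (c : ℂ) * (τ : ℂ) + d ≠ 0 := by
      have h := UpperHalfPlane.denom_ne_zero (γ : GL (Fin 2) ℝ) τ
      simpa [UpperHalfPlane.denom, ← hc, ← hd] using h
    have hf : ((a : ℂ) * τ + b) / ((c : ℂ) * τ + d) = τ := by
      have h := congrArg (fun z : ℍ => (z : ℂ)) hfix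
      change ((((γ : GL (Fin 2) ℝ) • τ : ℍ)) : ℂ) = _ at h
      rw [UpperHalfPlane.coe_smul_of_det_pos (det_pos_SL γ)] at h
      simpa [UpperHalfPlane.num, UpperHalfPlane.denom, ← ha, ← hb, ← hc, ← hd] using h
    rw [div_eq_iff hden] at hf
    apply UpperHalfPlane.ext
    have hden' := UpperHalfPlane.denom_ne_zero (δ : GL (Fin 2) ℝ) (scaleGL l • τ)
    show ((((δ : GL (Fin 2) ℝ) • (scaleGL l • τ) : ℍ)) : ℂ) = _
    rw [UpperHalfPlane.coe_smul_of_det_pos (det_pos_SL δ)]
    rw [div_eq_iff hden']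
    have he : ∀ i j, ((δ : GL (Fin 2) ℝ) i j : ℝ) = ((δ i j : ℤ) : ℝ) := fun _ _ => rfl
    simp only [UpperHalfPlane.num, UpperHalfPlane.denom, he, coe_scaleGL_smul]
    simp [δ]
    have hu' : ((x : ℂ) + y * a) = l * u := by exact_mod_cast hu
    have hm' : (c : ℂ) = N * l * m := by exact_mod_cast hm
    linear_combination (-(τ : ℂ)) * hu' + (y : ℂ) * hf + (y : ℂ) * (τ : ℂ) * (τ : ℂ) * hm'

/-! ### The generated algebra along the two degeneracy maps -/

variable {N l : ℕ} [NeZero N] [NeZero l]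

theorem exists_alpha_gen (a : ↥(algGen Qbar N)) :
    ∃ a' : ↥(algGen Qbar (N * l)),
      heckeAlphaBar Qbar N l (algToField Qbar N a) = algToField Qbar (N * l) a' ∧
      ∀ z : ℍ, (toModFun HeckeJ0.qbarEmb a' : ℍ → ℂ) z =
        (toModFun HeckeJ0.qbarEmb a : ℍ → ℂ) z := by
  suffices ∃ a' : ↥(algGen Qbar (N * l)), (a' : LaurentSeries Qbar) = a ∧
      ∀ z : ℍ, (toModFun HeckeJ0.qbarEmb a' : ℍ → ℂ) z =
        (toModFun HeckeJ0.qbarEmb a : ℍ → ℂ) z by
    obtain ⟨a', h1, h2⟩ := this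
    exact ⟨a', Subtype.ext ((coe_heckeAlphaBar N l _).trans h1.symm), h2⟩
  obtain ⟨a, ha⟩ := a
  induction ha using Algebra.adjoin_induction with
  | mem y hy =>
    obtain ⟨d, hd0, hd, rfl⟩ := hy
    refine ⟨⟨jL Qbar d, Algebra.subset_adjoin ⟨d, hd0, hd.mul_right l, rfl⟩⟩, rfl, fun z => ?_⟩
    rw [toModFun_jL _ (hd.mul_right l), toModFun_jL _ hd]
  | algebraMap c =>
    refine ⟨algebraMap Qbar _ c, rfl, fun z => ?_⟩
    rw [toModFun_algebraMap]
    exact (congrFun (congrArg Subtype.val (toModFun_algebraMap (N := N) HeckeJ0.qbarEmb c)) z).symm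
  | add p q hp hq hp' hq' =>
    obtain ⟨p', hp1, hp2⟩ := hp'
    obtain ⟨q', hq1, hq2⟩ := hq'
    refine ⟨p' + q', by rw [AddMemClass.coe_add, hp1, hq1], fun z => ?_⟩
    rw [show (⟨p + q, Subalgebra.add_mem _ hp hq⟩ : ↥(algGen Qbar N)) = ⟨p, hp⟩ + ⟨q, hq⟩ from rfl,
      map_add, map_add]
    exact congrArg₂ (· + ·) (hp2 z) (hq2 z)
  | mul p q hp hq hp' hq' =>
    obtain ⟨p', hp1, hp2⟩ := hp'
    obtain ⟨q', hq1, hq2⟩ := hq'
    refine ⟨p' * q', by rw [MulMemClass.coe_mul, hp1, hq1], fun z => ?_⟩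
    rw [show (⟨p * q, Subalgebra.mul_mem _ hp hq⟩ : ↥(algGen Qbar N)) = ⟨p, hp⟩ * ⟨q, hq⟩ from rfl,
      map_mul, map_mul]
    exact congrArg₂ (· * ·) (hp2 z) (hq2 z)

theorem qExpand_jL (d : ℕ) [NeZero d] : qExpand Qbar l (jL Qbar d) = jL Qbar (l * d) := by
  rw [jL, jL, Reduction.coeffEmb_qExpand_jq, Reduction.coeffEmb_qExpand_jq, qExpand_qExpand]

theorem exists_beta_gen (a : ↥(algGen Qbar N)) :
    ∃ a' : ↥(algGen Qbar (N * l)),
      heckeBetaBar Qbar N l (algToField Qbar N a) = algToField Qbar (N * l) a' ∧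
      ∀ z : ℍ, (toModFun HeckeJ0.qbarEmb a' : ℍ → ℂ) z =
        (toModFun HeckeJ0.qbarEmb a : ℍ → ℂ) (scaleGL l • z) := by
  suffices ∃ a' : ↥(algGen Qbar (N * l)), (a' : LaurentSeries Qbar) = qExpand Qbar l a ∧
      ∀ z : ℍ, (toModFun HeckeJ0.qbarEmb a' : ℍ → ℂ) z =
        (toModFun HeckeJ0.qbarEmb a : ℍ → ℂ) (scaleGL l • z) by
    obtain ⟨a', h1, h2⟩ := this
    exact ⟨a', Subtype.ext ((coe_heckeBetaBar N l _).trans h1.symm), h2⟩
  obtain ⟨a, ha⟩ := a
  induction ha using Algebra.adjoin_induction with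
  | mem y hy =>
    obtain ⟨d, hd0, hd, rfl⟩ := hy
    have hdl : l * d ∣ N * l := by rw [mul_comm N l]; exact mul_dvd_mul_left l hd
    refine ⟨⟨jL Qbar (l * d), Algebra.subset_adjoin ⟨l * d, inferInstance, hdl, rfl⟩⟩,
      (qExpand_jL d).symm, fun z => ?_⟩
    rw [toModFun_jL _ hdl, toModFun_jL _ hd]
    show jFun (scaleGL (l * d) • z) = jFun (scaleGL d • (scaleGL l • z))
    congr 1
    apply UpperHalfPlane.ext
    rw [coe_scaleGL_smul, coe_scaleGL_smul, coe_scaleGL_smul]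
    push_cast
    ring
  | algebraMap c =>
    refine ⟨algebraMap Qbar _ c, ?_, fun z => ?_⟩
    · show algebraMap Qbar (LaurentSeries Qbar) c = qExpand Qbar l (algebraMap Qbar _ c)
      rw [algebraMap_laurentSeries_eq_single, qExpand_single, mul_zero]
    · rw [toModFun_algebraMap]
      exact (congrFun (congrArg Subtype.val (toModFun_algebraMap (N := N) HeckeJ0.qbarEmb c))
        (scaleGL l • z)).symm
  | add p q hp hq hp' hq' =>
    obtain ⟨p', hp1, hp2⟩ := hp'
    obtain ⟨q', hq1, hq2⟩ := hq'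
    refine ⟨p' + q', by rw [AddMemClass.coe_add, hp1, hq1]; exact (map_add _ p q).symm,
      fun z => ?_⟩
    rw [show (⟨p + q, Subalgebra.add_mem _ hp hq⟩ : ↥(algGen Qbar N)) = ⟨p, hp⟩ + ⟨q, hq⟩ from rfl,
      map_add, map_add]
    exact congrArg₂ (· + ·) (hp2 z) (hq2 z)
  | mul p q hp hq hp' hq' =>
    obtain ⟨p', hp1, hp2⟩ := hp'
    obtain ⟨q', hq1, hq2⟩ := hq'
    refine ⟨p' * q', by rw [MulMemClass.coe_mul, hp1, hq1]; exact (map_mul _ p q).symm,
      fun z => ?_⟩
    rw [show (⟨p * q, Subalgebra.mul_mem _ hp hq⟩ : ↥(algGen Qbar N)) = ⟨p, hp⟩ * ⟨q, hq⟩ from rfl,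
      map_mul, map_mul]
    exact congrArg₂ (· * ·) (hp2 z) (hq2 z)

theorem perToHol_conj_mk {M : ℕ} [NeZero M] (g : SL(2, ℤ)) (F : ↥(modFun M)) :
    perToHol M (X0Analytic.conj (g : CosetSpace M) F) =
      preComp ((g⁻¹ : SL(2, ℤ)) : GL (Fin 2) ℝ) (det_pos_SL _) (modToHol M F) :=
  rfl

theorem trace_conj_ST (g : SL(2, ℤ)) :
    (g⁻¹ * (ModularGroup.S * ModularGroup.T) * g) 0 0 +
      (g⁻¹ * (ModularGroup.S * ModularGroup.T) * g) 1 1 = 1 := by
  rw [← Matrix.trace_fin_two, Matrix.SpecialLinearGroup.coe_mul, Matrix.trace_mul_comm,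
    ← Matrix.SpecialLinearGroup.coe_mul, ← mul_assoc, mul_inv_cancel, one_mul,
    Matrix.trace_fin_two, Matrix.SpecialLinearGroup.coe_mul]
  simp [ModularGroup.S, ModularGroup.T, Matrix.mul_apply, Fin.sum_univ_two]

theorem ST_smul_rho : (ModularGroup.S * ModularGroup.T) • rhoPt = rhoPt := by
  have h := chart_rot_rho (t := 0) (by simp)
  rw [mul_zero, chart_zero, UpperHalfPlane.ofComplex_apply, inv_smul_eq_iff] at h
  exact h.symm

/-! ### The places over an unramified zero of `j` along `β` -/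

/-- The order at a place above the elliptic point, read off at `g⁻¹ ρ`. -/
theorem three_mul_ord {M : ℕ} [NeZero M] {W : Place Qbar (modularFunctionFieldBar M)}
    {g : SL(2, ℤ)}
    (hW : ∀ f, (embPoint HeckeJ0.qbarEmb rhoPt (g : CosetSpace M) f).order = 3 * W.ord f)
    (a : ↥(algGen Qbar M)) :
    3 * W.ord (algToField Qbar M a) =
      (psL (tayHom (g⁻¹ • rhoPt) (modToHol M (toModFun HeckeJ0.qbarEmb a)))).order := by
  rw [← hW, embPoint_algToField, perToHol_conj_mk, order_tay_preComp]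
  rfl

theorem modToHol_apply {M : ℕ} [NeZero M] (F : ↥(modFun M)) (z : ℍ) :
    (modToHol M F : ℍ → ℂ) z = (F : ℍ → ℂ) z :=
  rfl

theorem det_pos_mul_scale (δ : SL(2, ℤ)) :
    0 < ((δ : GL (Fin 2) ℝ) * scaleGL l).det.val := by
  rw [map_mul, Units.val_mul]
  exact mul_pos (det_pos_SL δ) (det_pos_scaleGL l)

theorem modToHol_beta {δ : SL(2, ℤ)} (hδ : δ ∈ CongruenceSubgroup.Gamma0 N)
    (F : ↥(modFun N)) (G : ↥(modFun (N * l)))
    (h : ∀ z : ℍ, (G : ℍ → ℂ) z = (F : ℍ → ℂ) (scaleGL l • z)) :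
    modToHol (N * l) G = preComp ((δ : GL (Fin 2) ℝ) * scaleGL l) (det_pos_mul_scale δ)
      (modToHol N F) := by
  refine Subtype.ext (funext fun z => ?_)
  rw [modToHol_apply, preComp_apply, modToHol_apply, h z, mul_smul]
  exact (F.2.2.1 δ hδ _).symm

/-- Two maps giving the same orders give the same place. -/
theorem restrictAlong_eq_of_ord_eq {K F F' : Type*} [Field K] [Field F] [Field F'] [Algebra K F]
    [Algebra K F'] (φ ψ : F →ₐ[K] F') (hφ : φ.toRingHom.IsIntegral)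
    (hψ : ψ.toRingHom.IsIntegral) (W : Place K F') (h : ∀ x, W.ord (φ x) = W.ord (ψ x)) :
    W.restrictAlong φ hφ = W.restrictAlong ψ hψ := by
  refine Place.ext (SetLike.ext fun x => ?_)
  show φ x ∈ W.toValuationSubring ↔ ψ x ∈ W.toValuationSubring
  rw [← FunctionFieldRR.ord_nonneg_iff, ← FunctionFieldRR.ord_nonneg_iff, h]

theorem ord_eq_of_ord_eq_frac {K F F' : Type*} [Field K] [Field F] [Field F'] [Algebra K F]
    [Algebra K F'] (φ ψ : F →ₐ[K] F') (W : Place K F') {x a b : F} (hb : b ≠ 0)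
    (hab : x * b = a) (ha : W.ord (φ a) = W.ord (ψ a)) (hb' : W.ord (φ b) = W.ord (ψ b)) :
    W.ord (φ x) = W.ord (ψ x) := by
  rcases eq_or_ne x 0 with rfl | hx
  · simp
  subst hab
  rw [map_mul, map_mul, W.ord_mul ((map_ne_zero φ).mpr hx) ((map_ne_zero φ).mpr hb),
    W.ord_mul ((map_ne_zero ψ).mpr hx) ((map_ne_zero ψ).mpr hb)] at ha
  omega

/-- Agreement of orders on the generated algebra gives equality of the two images. -/
theorem restrict_eq_of_ord_eq {W : Place Qbar (modularFunctionFieldBar (N * l))}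
    (hord : ∀ a : ↥(algGen Qbar N),
      W.ord (heckeAlphaBar Qbar N l (algToField Qbar N a)) =
        W.ord (heckeBetaBar Qbar N l (algToField Qbar N a))) :
    W.restrictAlong (heckeAlphaBar Qbar N l) (HeckeJ0.alphaIntegral N l) =
      W.restrictAlong (heckeBetaBar Qbar N l) (HeckeJ0.betaIntegral N l) := by
  refine restrictAlong_eq_of_ord_eq _ _ _ _ W fun x => ?_
  obtain ⟨a, b, hb, hab⟩ := exists_div Qbar N x
  exact ord_eq_of_ord_eq_frac _ _ W
    ((map_ne_zero_iff _ (algToField_injective Qbar N)).mpr hb) hab (hord a) (hord b)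

/-- At an elliptic coset the two degeneracy maps give the same place. -/
theorem restrict_eq_of_fixed (hl : l.Prime)
    {W : Place Qbar (modularFunctionFieldBar (N * l))} {g : SL(2, ℤ)}
    (hg : (ModularGroup.S * ModularGroup.T) • (g : CosetSpace (N * l)) = (g : CosetSpace (N * l)))
    (hW : ∀ f, (embPoint HeckeJ0.qbarEmb rhoPt (g : CosetSpace (N * l)) f).order = 3 * W.ord f) :
    W.restrictAlong (heckeAlphaBar Qbar N l) (HeckeJ0.alphaIntegral N l) =
      W.restrictAlong (heckeBetaBar Qbar N l) (HeckeJ0.betaIntegral N l) := by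
  set τ₀ : ℍ := g⁻¹ • rhoPt with hτ
  set γ := g⁻¹ * (ModularGroup.S * ModularGroup.T) * g with hγdef
  have hmem : γ ∈ CongruenceSubgroup.Gamma0 (N * l) := by
    rw [MulAction.Quotient.smul_coe, QuotientGroup.eq, smul_eq_mul] at hg
    rw [show γ = ((ModularGroup.S * ModularGroup.T * g)⁻¹ * g)⁻¹ by rw [hγdef]; group]
    exact inv_mem hg
  have hfix : γ • τ₀ = τ₀ := by
    rw [hγdef, hτ, mul_smul, mul_smul, smul_inv_smul, ST_smul_rho]
  obtain ⟨δ, hδ, hδfix⟩ := exists_mem_Gamma0_smul_scale hl hmem (trace_conj_ST g) hfix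
  refine restrict_eq_of_ord_eq fun a => ?_
  obtain ⟨a₁, h1, h1f⟩ := exists_alpha_gen (l := l) a
  obtain ⟨a₂, h2, h2f⟩ := exists_beta_gen (l := l) a
  have e1 : modToHol (N * l) (toModFun HeckeJ0.qbarEmb a₁) =
      modToHol N (toModFun HeckeJ0.qbarEmb a) :=
    Subtype.ext (funext fun z => h1f z)
  have k1 := three_mul_ord hW a₁
  have k2 := three_mul_ord hW a₂
  rw [← hτ, e1] at k1
  have hsm : ((δ : GL (Fin 2) ℝ) • (scaleGL l • τ₀) : ℍ) = τ₀ := hδfix
  rw [← hτ, modToHol_beta hδ _ _ h2f, order_tay_preComp, mul_smul, hsm] at k2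
  rw [h1, h2]
  omega

/-- The order of `j (l τ)` at a point is `0` or `3` at its zeros. -/
theorem order_beta_point (τ : ℍ) (g : SL(2, ℤ))
    (h : 0 < (embPoint (N := N * l) HeckeJ0.qbarEmb τ (g : CosetSpace (N * l))
      (algToField Qbar (N * l)
        ⟨jL Qbar l, Algebra.subset_adjoin ⟨l, inferInstance, dvd_mul_left l N, rfl⟩⟩)).order) :
    (embPoint (N := N * l) HeckeJ0.qbarEmb τ (g : CosetSpace (N * l))
      (algToField Qbar (N * l)
        ⟨jL Qbar l, Algebra.subset_adjoin ⟨l, inferInstance, dvd_mul_left l N, rfl⟩⟩)).order = 3 := by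
  rw [embPoint_algToField, toModFun_jL _ (dvd_mul_left l N), perToHol_conj_mk, order_tay_preComp]
    at h ⊢
  rw [show modToHol (N * l) ⟨scaledJ l, scaledJ_mem (dvd_mul_left l N)⟩ =
    preComp (scaleGL l) (det_pos_scaleGL l) jHol from rfl, order_tay_preComp] at h ⊢
  set w := scaleGL l • (((g⁻¹ : SL(2, ℤ)) : GL (Fin 2) ℝ) • τ)
  have h0 : jSeries w 0 = tayHom w jHol := by rw [jSeries, map_zero, sub_zero]
  rw [← h0]
  refine order_jSeries_zero (eq_E4_zero_of_jFun_zero ?_)
  by_contra hne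
  have hc : PowerSeries.constantCoeff (jSeries w 0) ≠ 0 := by
    rwa [constantCoeff_jSeries, sub_zero]
  rw [← h0, order_psL_of_constantCoeff hc] at h
  exact lt_irrefl 0 h

/-- Above an unramified zero of `j` along `β`: three divides the index, or `α` leads back. -/
theorem three_dvd_or_restrict_eq (hl : l.Prime)
    (W : Place Qbar (modularFunctionFieldBar (N * l)))
    (hb : 0 < W.ord (heckeBetaBar Qbar N l (Reduction.jBar N))) :
    (3 : ℤ) ∣ W.ord (heckeBetaBar Qbar N l (Reduction.jBar N)) ∨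
      W.restrictAlong (heckeAlphaBar Qbar N l) (HeckeJ0.alphaIntegral N l) =
        W.restrictAlong (heckeBetaBar Qbar N l) (HeckeJ0.betaIntegral N l) := by
  classical
  have := HeckeJ0.isFunctionField_bar (N * l)
  set jl : ↥(algGen Qbar (N * l)) :=
    ⟨jL Qbar l, Algebra.subset_adjoin ⟨l, inferInstance, dvd_mul_left l N, rfl⟩⟩ with hjl
  have hbj : heckeBetaBar Qbar N l (Reduction.jBar N) = algToField Qbar (N * l) jl := by
    refine Subtype.ext ((coe_heckeBetaBar N l _).trans ?_)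
    show qExpand Qbar l (jqModC Qbar) = jL Qbar l
    rw [jL, Reduction.coeffEmb_qExpand_jq]
  rw [hbj] at hb ⊢
  rcases FunctionFieldRR.ord_pos_or_ord_neg W (jEl Qbar (N * l)) with hneg | ⟨c, hc | hc⟩
  · exfalso
    obtain ⟨pl, hpl⟩ := exists_places_infty (L := Qbar) (N := N * l) HeckeJ0.qbarEmb
    obtain ⟨s, hs⟩ := hpl.2.2.2.2 W (by rw [W.ord_inv]; omega)
    have h3 := hpl.2.2.1 s (algToField Qbar (N * l) jl)
    rw [hs] at h3
    induction s using QuotientGroup.induction_on with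
    | H g =>
      obtain ⟨A, D, M, _, ζ, hζ, hmem, -, -, -, hser⟩ :=
        scaledJ_comp (N := N * l) (dvd_mul_left l N) g⁻¹
      rw [embCusp_algToField, hjl, toModFun_jL _ (dvd_mul_left l N),
        show X0Analytic.conj (g : CosetSpace (N * l)) ⟨scaledJ l, scaledJ_mem (dvd_mul_left l N)⟩ =
          ⟨_, hmem⟩ from rfl, hser, order_qExpand M (rot_jqC_ne_zero hζ), order_rot hζ jqC_ne_zero,
        jqC_order] at h3
      have hp := minimalPeriod_pos_perm (cosetPerm ModularGroup.T)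
        (g : CosetSpace (N * l))
      have hM : (0 : ℤ) < M := by exact_mod_cast Nat.pos_of_ne_zero (NeZero.ne M)
      have hN : (0 : ℤ) < ((N * l : ℕ) : ℤ) := by
        exact_mod_cast Nat.pos_of_ne_zero (NeZero.ne (N * l))
      have hp' : (0 : ℤ) < (Function.minimalPeriod (cosetPerm ModularGroup.T)
        (g : CosetSpace (N * l)) : ℤ) := by exact_mod_cast hp
      nlinarith [mul_pos hN hb, mul_pos hM hp']
  · exact absurd (hc ▸ isAlgebraic_algebraMap (A := ↥(FLevel Qbar (N * l))) c)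
      (transcendental_jEl HeckeJ0.qbarEmb)
  · -- `W` lies over `j = c`
    suffices ∀ (τ : ℍ) (m : ℕ), 0 < m → ∀ (σ : SL(2, ℤ)) (pl : CosetSpace (N * l) → Place Qbar _),
        FibreData (embPoint HeckeJ0.qbarEmb τ)
          (jEl Qbar (N * l) - algebraMap Qbar ↥(FLevel Qbar (N * l)) c) m (cosetPerm σ) pl →
        ∃ g : SL(2, ℤ), pl g = W ∧
          3 * (Function.minimalPeriod (cosetPerm σ) (g : CosetSpace (N * l)) : ℤ) =
            m * W.ord (algToField Qbar (N * l) jl) by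
      by_cases h0 : c = 0
      · subst h0
        obtain ⟨pl, hpl⟩ := exists_places_zero (L := Qbar) (N := N * l) HeckeJ0.qbarEmb
        obtain ⟨g, hs, he⟩ := this _ _ (by norm_num) _ pl hpl
        rcases (Nat.prime_three).eq_one_or_self_of_dvd _
            (period_dvd ST_pow_three (g : CosetSpace (N * l))) with hp | hp
        · refine Or.inr (restrict_eq_of_fixed hl
            (Function.minimalPeriod_eq_one_iff_isFixedPt.mp hp) fun f => ?_)
          have h3 := hpl.2.2.1 g f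
          rw [hs, hp, Nat.cast_one, mul_one] at h3
          exact_mod_cast h3
        · rw [hp] at he
          push_cast at he
          left; omega
      · by_cases h1 : c = 1728
        · subst h1
          obtain ⟨pl, hpl⟩ := exists_places_1728 (L := Qbar) (N := N * l) HeckeJ0.qbarEmb
          obtain ⟨g, hs, he⟩ := this _ _ (by norm_num) _ pl hpl
          push_cast at he
          left; omega
        · obtain ⟨τ, hτ⟩ := exists_jFun_eq (HeckeJ0.qbarEmb c)
          obtain ⟨pl, hpl⟩ := exists_places_generic (N := N * l) HeckeJ0.qbarEmb hτ h0 h1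
          obtain ⟨g, hs, he⟩ := this _ _ (by norm_num) _ pl hpl
          push_cast at he
          left; omega
    intro τ m hm' σ pl hpl
    obtain ⟨s, hs⟩ := hpl.2.2.2.2 W hc
    have hper := hpl.2.1 s
    rw [hs] at hper
    induction s using QuotientGroup.induction_on with
    | H g =>
      refine ⟨g, hs, ?_⟩
      have h3 := hpl.2.2.1 g (algToField Qbar (N * l) jl)
      rw [hs] at h3
      have hm : (0 : ℤ) < m := by exact_mod_cast hm'
      have hpos : 0 < (embPoint HeckeJ0.qbarEmb τ (g : CosetSpace (N * l))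
          (algToField Qbar (N * l) jl)).order :=
        pos_of_mul_pos_left (h3 ▸ mul_pos hm hb) (Int.natCast_nonneg _)
      rwa [order_beta_point τ g hpos] at h3

/-- A correspondence on a point, when all places have degree one. -/
theorem correspondence_single {K F F' : Type*} [Field K] [Field F] [Field F'] [Algebra K F]
    [Algebra K F'] [HasPrincipalDivisors K F'] (φ ψ : F →ₐ[K] F') (hφ : φ.toRingHom.IsIntegral)
    (hψ : ψ.toRingHom.IsIntegral) (hdeg : ∀ v : Place K F, v.deg = 1)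
    (hdeg' : ∀ w : Place K F', w.deg = 1) (P : Place K F) :
    Divisor.correspondence φ ψ hφ hψ (Finsupp.single P 1) =
      ∑ W ∈ Place.fiberAlong φ hφ P,
        Finsupp.single (W.restrictAlong ψ hψ) ((W.ramificationIndexAlong φ : ℤ)) := by
  rw [Divisor.correspondence_apply, Divisor.pullbackAlong_single, map_sum]
  refine Finset.sum_congr rfl fun W _ => ?_
  rw [Divisor.pushforwardAlong_single, HeckeJ0.inertiaDegAlong_eq_one _ hdeg hdeg', one_mul,
    Nat.cast_one, mul_one]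

/-- `T_l P ≡ (l + 1) P` modulo `3` at an unramified point over `j = 0`. -/
theorem tdiv_single_elliptic {N l : ℕ} [NeZero N] [NeZero l] (hl : l.Prime) (hlN : ¬ l ∣ N)
    {P : Place Qbar (modularFunctionFieldBar N)}
    (hP : P.ord (Reduction.jBar N) = 1) (Q : Place Qbar (modularFunctionFieldBar N)) :
    (3 : ℤ) ∣ MazurPrinciple.Tdiv N l (Finsupp.single P 1) Q -
      ((l : ℤ) + 1) * Finsupp.single P 1 Q := by
  classical
  have := HeckeJ0.isFunctionField_bar N
  have := HeckeJ0.isFunctionField_bar (N * l)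
  have := HeckeJ0.hasPrincipalDivisors_bar (N * l)
  set S := Place.fiberAlong (heckeBetaBar Qbar N l) (HeckeJ0.betaIntegral N l) P with hS
  have hT : MazurPrinciple.Tdiv N l (Finsupp.single P 1) =
      ∑ W ∈ S, Finsupp.single (W.restrictAlong (heckeAlphaBar Qbar N l) (HeckeJ0.alphaIntegral N l))
        ((W.ramificationIndexAlong (heckeBetaBar Qbar N l) : ℤ)) := by
    exact correspondence_single _ _ _ _ FunctionFieldRR.deg_eq_one FunctionFieldRR.deg_eq_one P
  have hdeg : ∑ W ∈ S, (W.ramificationIndexAlong (heckeBetaBar Qbar N l) : ℤ) = (l : ℤ) + 1 := by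
    have h := MazurPrinciple.degree_Tdiv hl hlN (Finsupp.single P (1 : ℤ))
    rw [hT, map_sum] at h
    simp only [Divisor.degree_single, FunctionFieldRR.deg_eq_one, Nat.cast_one, mul_one] at h
    exact h
  rw [← hdeg, hT, Finset.sum_apply', Finset.sum_mul, ← Finset.sum_sub_distrib]
  refine Finset.dvd_sum fun W hW => ?_
  have hWP := Place.mem_fiberAlong.mp hW
  have he : W.ord (heckeBetaBar Qbar N l (Reduction.jBar N)) =
      (W.ramificationIndexAlong (heckeBetaBar Qbar N l) : ℤ) := by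
    rw [Place.ord_restrictAlong (heckeBetaBar Qbar N l) (HeckeJ0.betaIntegral N l), hWP, hP, mul_one]
  by_cases he0 : W.ramificationIndexAlong (heckeBetaBar Qbar N l) = 0
  · simp [he0]
  rcases three_dvd_or_restrict_eq hl W (by rw [he]; omega) with h | h
  · rw [he] at h
    refine dvd_sub ?_ (h.mul_right _)
    rw [Finsupp.single_apply]
    split_ifs
    · exact h
    · exact dvd_zero _
  · rw [h, hWP, Finsupp.single_apply, Finsupp.single_apply]
    split_ifs <;> simp

end Fermat.Agent.Row39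

end
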