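import Fermat.Agent.OrdinaryT.NewtonMain

/-!
# Combinations of classes congruent to `1` beyond `p / (p - 1)` whose jumps cancel

A representative congruent to `1` beyond `p / (p - 1)` has an approximate root `1 + z E` in its
twisted space, `z` of value `1 / (p - 1)`. When some twisted space of another such representative
contains `1 + z E'` with `E'` reducing to zero, that representative is a constant times a `p`-th
power. This applies to the class `σ x + m x` when `σ z / z ≡ - m` modulo the maximal ideal.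
-/

set_option autoImplicit false

noncomputable section

open AlgebraicCurve Fermat.Agent.FunctionFieldRR Fermat.Agent.SemistableRed Fermat.Agent.OrdinaryT

namespace Fermat.Agent.Row39

variable {L : Type*} [Field L] [IsAlgClosed L] {A : ValuationSubring L} {k : Type*} [Field k]
  [IsAlgClosed k] {π : A →+* k} {F : Type*} [Field F] [Algebra L F] [IsFunctionField L F]
  {G : Type*} [Field G] [Algebra k G] [IsFunctionField k G]
variable (S : SplitModel A π F G)

omit [IsAlgClosed L] [IsFunctionField L F] in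
include S in
/-- Two elements at exponent `1 / (p - 1)` have an integral quotient. -/
theorem div_mem_of_units {p : ℕ} (hp : p.Prime) {a z : L} (ha : a ≠ 0) (hz : z ≠ 0)
    (hra : (p : L) / a ^ (p - 1) ∈ A) (hra0 : π ⟨_, hra⟩ ≠ 0)
    (hrz : (p : L) / z ^ (p - 1) ∈ A) : a / z ∈ A := by
  by_contra hn
  obtain ⟨h1, h2⟩ := S.inv_mem_max hn
  apply hra0
  have he : (⟨_, hra⟩ : A) = (⟨(a / z)⁻¹, h1⟩ : A) ^ (p - 1) * ⟨_, hrz⟩ := Subtype.ext (by
    rw [MulMemClass.coe_mul, SubmonoidClass.coe_pow]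
    show (p : L) / a ^ (p - 1) = ((a / z)⁻¹) ^ (p - 1) * ((p : L) / z ^ (p - 1))
    rw [inv_div, div_pow]
    field_simp)
  rw [he, map_mul, map_pow, h2, zero_pow (by have := hp.two_le; omega), zero_mul]

omit [IsAlgClosed L] [IsAlgClosed k] [IsFunctionField L F] [IsFunctionField k G] in
theorem one_mem_rrs (M : ℕ) : (1 : F) ∈ riemannRochSpace ((M : ℤ) • S.H) :=
  mem_rrs_iff.mpr (Or.inr fun P => by
    simpa using mul_nonneg (Nat.cast_nonneg M) (S.H_nonneg P))

omit [IsAlgClosed L] [IsFunctionField L F] in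
/-- An approximate root at exponent `1 / (p - 1)`. -/
theorem exists_one_add_smul_mem_twist {p : ℕ} (hp : p.Prime) [CharP k p] (hpL : (p : L) ≠ 0)
    (R : S.Rep p) {c : L} (hc : Deep π p c) (hu : S.DivBy ((p : L) * c) (R.u - 1)) {z : L}
    (hz0 : z ≠ 0) (hrz : (p : L) / z ^ (p - 1) ∈ A) :
    ∃ E, S.Int2 E ∧ 1 + z • E ∈ S.twist R S.evalLevel := by
  by_contra hnone
  push Not at hnone
  obtain ⟨φ, hφ, b, hb, -, -, hφ1, -⟩ := exists_deep_approx S hp hpL R (le_refl S.evalLevel)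
    S.int_one (one_mem_rrs S _) hc hu (fun a E hr ha hr0 hE hmem _ => by
      exfalso
      refine hnone (((a : L) / z) • E)
        (fun i => S.int_smul i _ _ (div_mem_of_units S hp ha hz0 hr hr0 hrz) (hE i)) ?_
      rwa [smul_smul, mul_div_cancel₀ _ hz0])
  obtain ⟨w, hw, hwe⟩ := exists_of_divBy hb.ne_zero hφ1
  obtain ⟨hbz, -⟩ := Deep.div_mem S hp hb hrz
  refine hnone ((b / z) • w) (fun i => S.int_smul i _ _ hbz (hw i)) ?_
  rwa [smul_smul, mul_div_cancel₀ _ hz0, ← hwe, add_sub_cancel]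

/-- An approximate root with vanishing first-order term rules out every jump. -/
theorem eq_const_mul_pow_of_root {p : ℕ} (hp : p.Prime) [CharP k p] (hpL : (p : L) ≠ 0)
    (R : S.Rep p) {c : L} (hc : Deep π p c) (hu : S.DivBy ((p : L) * c) (R.u - 1)) {z : L}
    (hz0 : z ≠ 0) (hrz : (p : L) / z ^ (p - 1) ∈ A) (hrz0 : π ⟨_, hrz⟩ ≠ 0) {M : ℕ}
    (hM : S.evalLevel ≤ M) {E₀ : F} (hE₀ : S.Int2 E₀) (hE₀0 : ∀ i, S.red i E₀ = 0)
    (hroot : 1 + z • E₀ ∈ S.twist R M) :
    ∃ (cst : L) (f : F), f ≠ 0 ∧ R.u = algebraMap L F cst * f ^ p := by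
  obtain ⟨φ, hφ, b, hb, hφi, hφr, hφ1, hφd⟩ := exists_deep_approx S hp hpL R hM
    S.int_one (one_mem_rrs S _) hc hu (fun a E hr ha hr0 hE hmem _ => by
      have hza := div_mem_of_units S hp hz0 ha hrz hrz0 hr
      refine ⟨(a : L)⁻¹ • ((1 + (a : L) • E) - (1 + z • E₀)),
        Submodule.smul_mem _ _ (sub_mem hmem hroot), ?_, ?_⟩
      all_goals
        rw [add_sub_add_left_eq_sub, smul_sub, smul_smul, inv_mul_cancel₀ ha, one_smul, smul_smul,
          inv_mul_eq_div]
      · exact fun i => S.int_sub (hE i) (S.int_smul i _ _ hza (hE₀ i))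
      · funext i
        show S.red i _ = S.red i E
        rw [S.red_sub (hE i) (S.int_smul i _ _ hza (hE₀ i)), S.red_smul i _ _ hza (hE₀ i),
          hE₀0 i, smul_zero, sub_zero])
  refine eq_const_mul_pow_of_approx S hp hpL R hc hu hM hφ hφi (fun i => ?_) hb hφ1 ?_
  · exact (congrFun hφr i).trans (S.red_one i)
  · simpa using hφd

omit [IsAlgClosed L] [IsAlgClosed k] [IsFunctionField L F] [IsFunctionField k G] in
/-- Powers of `1 + z E` are congruent to `1 + m z E`. -/
theorem exists_pow_one_add_smul {z : L} (hz : z ∈ A) (hz' : π ⟨z, hz⟩ = 0) {E : F}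
    (hE : S.Int2 E) (m : ℕ) :
    ∃ Em, S.Int2 Em ∧ (∀ i, S.red i Em = (m : k) • S.red i E) ∧
      (1 + z • E) ^ m = 1 + z • Em := by
  induction m with
  | zero => exact ⟨0, S.int_zero, fun i => by rw [S.red_zero, Nat.cast_zero, zero_smul], by simp⟩
  | succ m ih =>
    obtain ⟨Em, h1, h2, h3⟩ := ih
    have hsum : S.Int2 (Em + E) := fun i => S.int_add i _ _ (h1 i) (hE i)
    have hprod : S.Int2 (Em * E) := fun i => S.int_mul i _ _ (h1 i) (hE i)
    refine ⟨Em + E + z • (Em * E),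
      fun i => S.int_add i _ _ (hsum i) (S.int_smul i _ _ hz (hprod i)), fun i => ?_, ?_⟩
    · rw [S.red_add i _ _ (hsum i) (S.int_smul i _ _ hz (hprod i)),
        S.smul_mem_zero hz hz' (hprod i), add_zero, S.red_add i _ _ (h1 i) (hE i), h2 i,
        Nat.cast_succ, add_smul, one_smul]
    · rw [pow_succ, h3]
      simp only [Algebra.smul_def]
      ring

/-- The class `σ x + m x` is principal when `σ z / z ≡ - m`. -/
theorem eq_const_mul_pow_of_scalar {p : ℕ} (hp : p.Prime) [CharP k p] (hpL : (p : L) ≠ 0)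
    (R : S.Rep p) {c : L} (hc : Deep π p c) (hu : S.DivBy ((p : L) * c) (R.u - 1))
    {s : SemilinearAut L F} {t : SemilinearAut k G} {e : ℕ} (hs : S.Compatible s t e)
    (ht : ∀ g : G, t • g = g) (hcs : SemilinearAut.baseAut s c / c ∈ A) {z : L} (hz0 : z ≠ 0) (hz : z ∈ A)
    (hzr : π ⟨z, hz⟩ = 0) (hrz : (p : L) / z ^ (p - 1) ∈ A) (hrz0 : π ⟨_, hrz⟩ ≠ 0) {m : ℕ}
    (hη : SemilinearAut.baseAut s z / z ∈ A) (hηm : π ⟨_, hη⟩ + (m : k) = 0)
    {D' : Divisor L F} (hdeg : Divisor.degree D' = 0)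
    (hD' : ∀ P, P.ord ((s • R.u) * R.u ^ m) = (p : ℤ) * D' P) :
    ∃ (cst : L) (f : F), f ≠ 0 ∧ (s • R.u) * R.u ^ m = algebraMap L F cst * f ^ p := by
  have hsc := SplitModel.smul_scalar (F := F) s
  have hsR : S.Int2 (s • R.u) := fun i => hs.int i _ (R.int i)
  have hRm : S.Int2 (R.u ^ m) := fun i => S.int_pow (R.int i) m
  have hsur : s • R.u ≠ 0 := (smul_ne_zero_iff_ne s).mpr R.u_ne
  let R' : S.Rep p :=
    ⟨(s • R.u) * R.u ^ m, D', mul_ne_zero hsur (pow_ne_zero _ R.u_ne), hD', hdeg,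
      fun i => S.int_mul i _ _ (hsR i) (hRm i), fun i => by
        rw [S.red_mul i _ _ (hsR i) (hRm i), hs.red i _ (R.int i), ht, S.red_pow (R.int i),
          R.red_u, one_pow, one_mul]⟩
  -- still congruent to `1` beyond `p / (p - 1)`
  have hc0 : (p : L) * c ≠ 0 := mul_ne_zero hpL hc.ne_zero
  obtain ⟨y, hy, hye⟩ := exists_of_divBy hc0 hu
  have hbp : SemilinearAut.baseAut s (p : L) = p := map_natCast _ p
  have hd1 : S.DivBy ((p : L) * c) (s • R.u - 1) := by
    have he : s • R.u - 1 = ((p : L) * SemilinearAut.baseAut s c) • (s • y) := by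
      rw [show s • R.u - 1 = s • (R.u - 1) by rw [smul_sub, smul_one], hye, hsc, map_mul, hbp]
    rw [he]
    refine divBy_of_mul_dvd (mul_ne_zero hpL ((map_ne_zero _).mpr hc.ne_zero)) hc0 ?_
      (divBy_smul (mul_ne_zero hpL ((map_ne_zero _).mpr hc.ne_zero)) fun i => hs.int i y (hy i))
    rwa [mul_div_mul_left _ _ hpL]
  have hd2 : S.DivBy ((p : L) * c) (R.u ^ m - 1) := by
    rw [← mul_geom_sum]
    refine hu.mul_int fun i => (S.int_sum _ fun j _ => S.int_pow (R.int i) j).1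
  have hu' : S.DivBy ((p : L) * c) (R'.u - 1) := by
    show S.DivBy _ ((s • R.u) * R.u ^ m - 1)
    rw [show (s • R.u) * R.u ^ m - 1 = (s • R.u - 1) * R.u ^ m + (R.u ^ m - 1) by ring]
    exact (hd1.mul_int hRm).add hd2
  -- the approximate root
  obtain ⟨E, hE, hφ⟩ := exists_one_add_smul_mem_twist S hp hpL R hc hu hz0 hrz
  obtain ⟨Em, hEm, hEmr, hpow⟩ := exists_pow_one_add_smul S hz hzr hE m
  set η := SemilinearAut.baseAut s z / z
  have hsE : S.Int2 (η • (s • E)) := fun i => S.int_smul i _ _ hη (hs.int i E (hE i))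
  have hsum : S.Int2 (η • (s • E) + Em) := fun i => S.int_add i _ _ (hsE i) (hEm i)
  have hprod : S.Int2 (η • (s • E) * Em) := fun i => S.int_mul i _ _ (hsE i) (hEm i)
  have hsφ : s • (1 + z • E) = 1 + z • (η • (s • E)) := by
    rw [smul_add, smul_one, hsc, smul_smul, mul_div_cancel₀ _ hz0]
  have he : (s • (1 + z • E)) * (1 + z • E) ^ m =
      1 + z • (η • (s • E) + Em + z • (η • (s • E) * Em)) := by
    rw [hpow, hsφ]
    simp only [Algebra.smul_def]
    ring
  refine eq_const_mul_pow_of_root S hp hpL R' hc hu' hz0 hrz hrz0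
    (M := (1 + m) * S.evalLevel) (Nat.le_mul_of_pos_left _ (by omega))
    (E₀ := η • (s • E) + Em + z • (η • (s • E) * Em))
    (fun i => S.int_add i _ _ (hsum i) (S.int_smul i _ _ hz (hprod i))) (fun i => ?_) ?_
  · rw [S.red_add i _ _ (hsum i) (S.int_smul i _ _ hz (hprod i)),
      S.smul_mem_zero hz hzr (hprod i), add_zero, S.red_add i _ _ (hsE i) (hEm i),
      S.red_smul i _ _ hη (hs.int i E (hE i)), hs.red i E (hE i), ht, hEmr i, ← add_smul,
      hηm, zero_smul]
  · rw [← he]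
    set φ := 1 + z • E with hφdef
    rcases eq_or_ne φ 0 with h0 | h0
    · rw [h0, smul_zero, zero_mul]; exact Submodule.zero_mem _
    refine mem_rrs_iff.mpr (Or.inr fun P => ?_)
    have h1 := (mem_rrs_iff.mp hφ).resolve_left h0 (s⁻¹ • P)
    have h2 := (mem_rrs_iff.mp hφ).resolve_left h0 P
    have hord : ∀ {f : F}, P.ord (s • f) = (s⁻¹ • P).ord f := fun {f} => by
      have := SemilinearAut.ord_smul s (s⁻¹ • P) f
      rwa [smul_inv_smul] at this
    have h3 := hs.H_inv (s⁻¹ • P)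
    rw [smul_inv_smul] at h3
    have hDe : D' P = R.D (s⁻¹ • P) + (m : ℤ) * R.D P := by
      refine mul_left_cancel₀ (by exact_mod_cast hp.ne_zero : (p : ℤ) ≠ 0) ?_
      rw [← hD', P.ord_mul hsur (pow_ne_zero _ R.u_ne), hord, FunctionFieldRR.ord_pow, R.ord_u,
        R.ord_u]
      ring
    rw [P.ord_mul ((smul_ne_zero_iff_ne s).mpr h0) (pow_ne_zero _ h0), hord,
      FunctionFieldRR.ord_pow]
    simp only [Finsupp.add_apply, Finsupp.smul_apply, smul_eq_mul] at h1 h2 ⊢
    show -(D' P + (((1 + m) * S.evalLevel : ℕ) : ℤ) * S.H P) ≤ _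
    rw [hDe]
    rw [← h3] at h1
    have := mul_le_mul_of_nonneg_left h2 (Nat.cast_nonneg (α := ℤ) m)
    push_cast
    linarith

end Fermat.Agent.Row39

end
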