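import Fermat.Agent.OrdinaryT.Kernel
import Fermat.Agent.OrdinaryT.Supersingular
import Fermat.Agent.Row39.Jump

/-!
# Inertia on the new part of the kernel of reduction

A `p`-torsion class in the kernel of reduction at level `M p` which is killed by both norms and
periodic under `T_ℓ - (ℓ + 1)` is multiplied by the cyclotomic character under inertia.
-/

set_option autoImplicit false

noncomputable section

open IsLocalRing ModularCurve AlgebraicCurve HahnSeries
open Fermat.Agent.Reduction Fermat.Agent.FunctionFieldRR Fermat.Agent.SemistableRed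
open Fermat.Agent.OrdinaryT Fermat.Agent.FlatJ0

namespace Fermat.Agent.Row39

local notation "Ω" => AlgebraicClosure ℚ

/-- The inertia elements fixing a class and an element. -/
def classPointFixer (A : ValuationSubring (AlgebraicClosure ℚ)) {N : ℕ} [NeZero N] (x : JZero N)
    (ζ : AlgebraicClosure ℚ) : Fixer A where
  H := (stabFixer A x).H ⊓ (pointFixer A ζ).H
  le_inertia := inf_le_left.trans (stabFixer A x).le_inertia
  exists_level := by
    obtain ⟨E, hE, hE'⟩ := (stabFixer A x).exists_level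
    obtain ⟨E', hE'', hE'''⟩ := (pointFixer A ζ).exists_level
    have := hE
    have := hE''
    exact ⟨E ⊔ E', inferInstance, fun σ hσ h => ⟨hE' σ hσ fun a ha => h a (le_sup_left (b := E') ha),
      hE''' σ hσ fun a ha => h a (le_sup_right (a := E) ha)⟩⟩

variable {A : ValuationSubring Ω} {M p : ℕ} [NeZero M] [NeZero p] [Fact p.Prime]
  [CharP (ResidueField A) p] [IsAlgClosed (ResidueField A)] (S : Setting A M p)

omit [CharP (ResidueField A) p] [IsAlgClosed (ResidueField A)] in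
/-- The image of the norm of a class killed by both norms is a constant times a power. -/
theorem exists_norm_eq_pow (Φ : Fixer A) {x : JZero (M * p)} (b : Bool)
    (hnorm : normMaps M p b x = 0) {N : modularFunctionFieldBar M} (hN : Φ.FFixed N)
    (hNc : IsFunctionOf p (normMaps M p b x) N) :
    ∃ (a : Ω) (g : modularFunctionFieldBar M), Φ.FFixed g ∧ g ≠ 0 ∧ N = a • g ^ p := by
  have := isFunctionField_level M
  rw [hnorm] at hNc
  obtain ⟨a, g, -, hg, he⟩ :=
    (isFunctionOf_one (L := Ω) (F := modularFunctionFieldBar M) (n := p)).exists_eq hNc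
  exact exists_fixed_root Φ (Fact.out : p.Prime).ne_zero hN hNc.1 ⟨a, g, hg, by rw [he, mul_one]⟩

/-- A function of such a class congruent to `1` beyond `p / (p - 1)` on both sides. -/
theorem exists_beyond_new {x : JZero (M * p)} (hx : x ∈ newKilled S p) {ζ : Ω}
    (hζ : IsPrimitiveRoot ζ p) (hnorm : ∀ b, normMaps M p b x = 0)
    {ℓ : ℕ} [Fact ℓ.Prime] (hℓ : ¬ ℓ ∣ M * p) {m : ℕ} (hm : m ≠ 0)
    (hT : (fun z => heckeOperatorAlong Ω (M * p) ℓ z - (ℓ + 1) • z)^[m] x = x) :
    x = 0 ∨ ∃ (u : modularFunctionFieldBar (M * p)) (c : Ω)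
      (v : Fin 2 → LaurentSeries (ResidueField A)), IsFunctionOf p x u ∧ c ≠ 0 ∧
        (p : ℚ) < ((p : ℚ) - 1) * ord A p c ∧ ∀ i, Cong c (S.side i u) (v i) := by
  classical
  have hA := isOver_of_setting S
  have hp := hA.prime
  have := isFunctionField_level M
  have := isFunctionField_level (M * p)
  have := HeckeJ0.hasPrincipalDivisors_bar (M * p)
  have := S.isFunctionField_C
  have hp2 : (2 : ℚ) ≤ p := by exact_mod_cast hp.two_le
  set Φ := classPointFixer A x ζ
  set E := pairExp S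
  obtain ⟨hzord, -⟩ := exists_zeta hA hζ
  set z := ζ - 1 with hzdef
  have hz0 : z ≠ 0 := sub_ne_zero.mpr (hζ.ne_one hp.one_lt)
  have hzF : z ∈ Φ.field := fun σ hσ => by rw [hzdef, map_sub, map_one, (mem_pointFixer.mp hσ.2).2]
  have hzpos : 0 < ord A p z := by
    by_contra hcon
    nlinarith [not_lt.mp hcon]
  have hzp0 : z ^ p ≠ 0 := pow_ne_zero _ hz0
  have hzpord : ord A p (z ^ p) = p * ord A p z := hA.ord_pow hz0 p
  have hzppos : 0 < ord A p (z ^ p) := by rw [hzpord]; positivity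
  have hzpA : z ^ p ∈ A := mem_of_ord hA (Or.inr hzppos.le)
  have hzpr := residue_eq_zero_of_pos hA hzpA (Or.inr hzppos)
  obtain ⟨u₁, hu₁, hu₁s⟩ := exists_srep_one_new S hℓ Φ hx fun σ hσ =>
    MulAction.mem_stabilizer_iff.mp hσ.1.2
  obtain ⟨j, rfl⟩ : ∃ j, m = j + 1 := ⟨m - 1, by omega⟩
  have hu₂ := inClass_iterate (ℓ := ℓ) Φ hu₁ j
  have hu₂s := fun k => srep_one_iterate S hℓ (hu₁s k) j
  rw [Function.iterate_succ_apply] at hT
  rw [hT] at hu₂
  -- the image under the iterate lies in the same class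
  have hiter : ∀ u, InClass Φ p x u →
      InClass Φ p x ((heckeNorm (M * p) ℓ)^[j] (heckeNorm (M * p) ℓ u)) := fun u hu => by
    have h1 : InClass Φ p (heckeOperatorAlong Ω (M * p) ℓ x - (ℓ + 1) • x)
        (heckeNorm (M * p) ℓ u) :=
      And.intro (fun σ hσ => by rw [heckeNorm_galois, hu.1 σ hσ]) (isFunctionOf_heckeNorm hu.2)
    have h2 := inClass_iterate (ℓ := ℓ) Φ h1 j
    rwa [hT] at h2
  -- the two norms
  have hnorms : ∀ (u : modularFunctionFieldBar (M * p)), InClass Φ p x u →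
      ∀ {c : Ω} (hcA : c ∈ A) (hcr : residue A ⟨c, hcA⟩ = 0) (hc0 : c ≠ 0)
        {v : Fin 2 → LaurentSeries (ResidueField A)}, (∀ i, Cong c (S.side i u) (v i)) → ∀ k,
        ∃ (a : Ω) (g : modularFunctionFieldBar M), Φ.FFixed g ∧ g ≠ 0 ∧
          Cong c ((levelExp S).side () (a • g ^ p)) (v k) := by
    intro u hu c hcA hcr hc0 v hv k
    obtain rfl | rfl : k = 0 ∨ k = 1 := by omega
    · obtain ⟨a, g, hg, hg0, he⟩ := exists_norm_eq_pow Φ false (hnorm false)
        (N := normAlong (heckeAlphaBar Ω M p) u)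
        (fun σ hσ => by rw [← normAlong_galois_alpha, hu.1 σ hσ]) (isFunctionOf_normMap _ hu.2)
      exact ⟨a, g, hg, hg0, by
        show Cong c ((a • g ^ p : modularFunctionFieldBar M) : LaurentSeries Ω) (v 0)
        rw [← he]; exact cong_normAlpha S hcA hcr hc0 hv⟩
    · obtain ⟨a, g, hg, hg0, he⟩ := exists_norm_eq_pow Φ true (hnorm true)
        (N := normAlong (heckeAlphaBar Ω M p) (S.w u))
        (fun σ hσ => by rw [← normAlong_galois_alpha, galois_w S, hu.1 σ hσ]) (by
          rw [← normAlong_comp (heckeBetaBar Ω M p) S.w (fun z => wq_heckeBetaBar _ _ z)]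
          exact isFunctionOf_normMap _ hu.2)
      exact ⟨a, g, hg, hg0, by
        show Cong c ((a • g ^ p : modularFunctionFieldBar M) : LaurentSeries Ω) (v 1)
        rw [← he]
        exact cong_normAlpha S hcA hcr hc0 (v := fun i => v (1 - i))
          fun i => by rw [S.side_w]; exact hv (1 - i)⟩
  -- climbing up to `p / (p - 1)`
  obtain ⟨u, c, v, hu, -, hc0, hc, hv⟩ := exists_atLeast E Φ hA
    (fun u c v hu hcF hc0 hc hcrit hv => by
      have hcA := mem_of_ord hA (Or.inr hc.le)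
      have hcr := residue_eq_zero_of_pos hA hcA (Or.inr hc)
      have hshape : ∀ i, Shape Φ p (levelExp S).G c (v i) := fun i => by
        obtain ⟨a, g, hg, hg0, h⟩ := hnorms u hu hcA hcr hc0 hv i
        exact shape_of_const_mul_pow (levelExp S) Φ hA hg hg0 hc0 hc hcrit h
      by_cases hb : ∃ b ∈ Φ.field, b ≠ 0 ∧ (p : ℚ) * ord A p b = ord A p c
      · obtain ⟨b, hb, hb0, hbc⟩ := hb
        have hy : ∀ i, ∃ y : E.G, (v i : LaurentSeries (ResidueField A)) =
            (y : LaurentSeries (ResidueField A)) ^ p := fun i => by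
          rcases hshape i with ⟨r, hr⟩ | ⟨-, y, hy, hye⟩
          · obtain ⟨r', hr'⟩ := IsAlgClosed.exists_pow_nat_eq r hp.pos
            exact ⟨⟨algebraMap _ _ r', E.G.algebraMap_mem _⟩, by rw [hr, ← hr', map_pow]⟩
          · exact ⟨⟨y, hy⟩, hye⟩
        choose y hy using hy
        exact absorb_pow E Φ hA hu hb hb0 hbc hc0 hc hcrit y fun i => hy i ▸ hv i
      · have hr : ∀ i, ∃ r, (v i : LaurentSeries (ResidueField A)) =
            algebraMap (ResidueField A) _ r :=
          fun i => (hshape i).resolve_right fun h => hb h.1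
        choose r hr using hr
        exact ⟨_, hiter u hu, fun k => cong_zero_iterate S hℓ hcA hcr hc0
          (cong_heckeNorm_const S hℓ hcA hcr hc0 (hr k ▸ hv k)) j⟩)
    hu₂ hu₂s
  -- the first-order terms at `p / (p - 1)`
  have hcz : c / z ^ p ∈ A := mem_of_ord hA (Or.inr (by
    rw [hA.ord_div hc0 hzp0, hzpord]
    nlinarith))
  have hzu : ∀ i, Cong (z ^ p) (E.side i u) (residue A ⟨_, hcz⟩ • v i) := fun i =>
    Cong.rescale (A := A) hc0 hcz (hv i)
  set h : Fin 2 → LaurentSeries (ResidueField A) := fun i => residue A ⟨_, hcz⟩ • v i with hh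
  have hεA : (p : Ω) * z / z ^ p ∈ A := mem_of_ord hA (Or.inr (by
    rw [hA.ord_div (mul_ne_zero hA.natCast_ne_zero hz0) hzp0, hA.ord_mul hA.natCast_ne_zero hz0,
      hA.ord_p, hzpord]
    linarith))
  have hrw : ∀ i, ∃ (r : ResidueField A) (w : E.G), h i = algebraMap (ResidueField A) _ r +
      ((w : LaurentSeries (ResidueField A)) ^ p +
        residue A ⟨_, hεA⟩ • (w : LaurentSeries (ResidueField A))) := fun i => by
    obtain ⟨a, g, hg, hg0, hg'⟩ := hnorms u hu hzpA hzpr hzp0 hzu i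
    obtain ⟨r, w, hw, he⟩ := shape_critical (levelExp S) Φ hA hzord hz0 hεA hg hg0 hg'
    exact ⟨r, ⟨w, hw⟩, he⟩
  choose r w hrw using hrw
  -- absorbing `w ^ p + ε w`
  obtain ⟨f, hf, hfr⟩ := E.lift w
  set g := 1 + z • f with hgdef
  have hg2 : ∀ i, Cong (z ^ p) (E.side i (g ^ p)) ((w i : LaurentSeries (ResidueField A)) ^ p +
      residue A ⟨_, hεA⟩ • (w i : LaurentSeries (ResidueField A))) := fun i => by
    rw [map_pow]
    obtain ⟨_, -, h5⟩ := Cong.pow_prime_critical hA hzord hz0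
      (x := E.side i g) (w := (w i : LaurentSeries (ResidueField A))) (by
        rw [Cong, hgdef, map_add, map_one, add_sub_cancel_left, algHom_smul,
          inv_smul_smul₀ hz0]
        exact hfr i)
    exact h5
  have hg0 : g ≠ 0 := fun h0 => by
    have h1 := (hg2 0).srep_one hzpA hzpr hzp0
    rw [h0, zero_pow hp.ne_zero, map_zero] at h1
    exact one_ne_zero (h1.unique SRep.zero)
  have hgf : Φ.FFixed g := Fixer.FFixed.add Φ (Fixer.ffixed_one Φ)
    (Fixer.FFixed.smul Φ hzF fun σ hσ => hf σ (Φ.le_inertia hσ))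
  set u₃ := u * g⁻¹ ^ p with hu₃
  have hu₃r : ∀ i, Cong (z ^ p) (S.side i u₃) (algebraMap (ResidueField A) _ (r i)) := fun i => by
    have h1 := Cong.mul hzpA hzpr hzp0 (hzu i) (Cong.inv hzpA hzpr hzp0 (hg2 i))
    rw [hu₃]
    show Cong (z ^ p) (E.side i (u * g⁻¹ ^ p)) _
    rw [map_mul, map_pow, map_inv₀, inv_pow]
    rw [map_pow] at h1
    rwa [show residue A ⟨_, hcz⟩ • v i = h i from rfl, hrw i, add_neg_cancel_right] at h1
  -- the constants are killed by the iterate
  have hu₄ := hiter u₃ (hu.mul_pow (hgf.inv Φ) (inv_ne_zero hg0))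
  set u₄ := (heckeNorm (M * p) ℓ)^[j] (heckeNorm (M * p) ℓ u₃)
  have hu₄0 : ∀ i, Cong (A := A) (z ^ p) (E.side i u₄) 0 := fun i =>
    cong_zero_iterate S hℓ hzpA hzpr hzp0
      (cong_heckeNorm_const S hℓ hzpA hzpr hzp0 (hu₃r i)) j
  by_cases h41 : u₄ = 1
  · exact Or.inl (eq_zero_of_const_mul_pow hp.ne_zero hu₄.2 (g := 1) (a := 1) one_ne_zero
      (by simp [h41]))
  obtain ⟨c', -, hc'0, hlt, v', hv', -, -⟩ := E.exists_deeper Φ hA hu₄.1 h41 hzp0 hu₄0
  refine Or.inr ⟨u₄, c', fun i => v' i, hu₄.2, hc'0, ?_, fun i => hv' i⟩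
  rw [hzpord] at hlt
  calc (p : ℚ) = ((p : ℚ) - 1) * (p * ord A p z) := by
        rw [show ((p : ℚ) - 1) * (p * ord A p z) = p * (((p : ℚ) - 1) * ord A p z) by ring,
          hzord, mul_one]
    _ < ((p : ℚ) - 1) * ord A p c' := mul_lt_mul_of_pos_left hlt (by linarith)

/-- **Inertia acts through the cyclotomic character on the new part of the kernel.** -/
theorem smul_eq_of_mem_newKilled {x : JZero (M * p)} (hx : x ∈ newKilled S p)
    (hnorm : ∀ b, normMaps M p b x = 0) {ℓ : ℕ} [Fact ℓ.Prime] (hℓ : ¬ ℓ ∣ M * p) {m : ℕ}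
    (hm : m ≠ 0) (hT : (fun z => heckeOperatorAlong Ω (M * p) ℓ z - (ℓ + 1) • z)^[m] x = x)
    {σ : Ω ≃ₐ[ℚ] Ω} (hσ : σ ∈ A.inertiaSubgroupIn ℚ) {ζ : Ω} (hζ : IsPrimitiveRoot ζ p) {w : ℕ}
    (hw : σ ζ = ζ ^ w) : σ • x = w • x := by
  classical
  have hA := isOver_of_setting S
  have hp := hA.prime
  have := isFunctionField_level (M * p)
  have := HeckeJ0.hasPrincipalDivisors_bar (M * p)
  have := S.isFunctionField_C
  obtain hx0 | ⟨u, c, v, hu, hc0, hc, hv⟩ := exists_beyond_new S hx hζ hnorm hℓ hm hT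
  · rw [hx0, nsmul_zero]
    exact map_zero (DistribSMul.toAddMonoidHom (JZero (M * p)) σ)
  have hpx : p • x = 0 := by
    obtain ⟨w, ⟨hw0, D, rfl, hD⟩, -⟩ := hx
    refine (QuotientAddGroup.eq_zero_iff (p • D)).mpr ?_
    rw [AddSubgroup.mem_addSubgroupOf]
    exact ⟨w, hw0, fun P => by rw [hD]; simp⟩
  have hp1 : (2 : ℚ) ≤ p := by exact_mod_cast hp.two_le
  have hcpos : 0 < ord A p c := by
    by_contra hcon
    rw [not_lt] at hcon
    nlinarith
  have hcA := mem_of_ord hA (Or.inr hcpos.le)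
  have hcr := residue_eq_zero_of_pos hA hcA (Or.inr hcpos)
  have h1 : ∀ i, S.gauss.Int i u ∧ S.gauss.red i u = 1 := fun i => S.red_eq (by
    rw [OneMemClass.coe_one]; exact (hv i).srep_one hcA hcr hc0)
  obtain ⟨hu0, D, hDx, hD⟩ := hu
  let R : S.splitModel.Rep p := ⟨u, (D : Divisor Ω _), hu0, hD, Divisor.mem_degZero.mp D.2,
    fun i => (h1 i).1, fun i => (h1 i).2⟩
  have hudiv : S.splitModel.DivBy ((p : Ω) * (c / p)) (R.u - 1) := fun i => by
    show ∃ w : LaurentSeries (ResidueField A), SRep (S.side i (((p : Ω) * (c / p))⁻¹ • (u - 1))) w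
    refine ⟨v i, ?_⟩
    rw [mul_div_cancel₀ _ hA.natCast_ne_zero, S.side_smul, map_sub, map_one]
    exact hv i
  -- the class `σ x + (p - 1) w x`
  set k := (p - 1) * w with hk
  have hy := ((show IsFunctionOf p x u from ⟨hu0, D, hDx, hD⟩).smul
      (s := arithmeticGalois (modularFunctionFieldFull (M * p)) σ)).mul
    (isFunctionOf_pow (show IsFunctionOf p x u from ⟨hu0, D, hDx, hD⟩) k)
  obtain ⟨-, D', hD'x, hD'⟩ := hy
  obtain ⟨hzord, hzσ⟩ := exists_zeta hA hζ
  obtain ⟨hη, hηw⟩ := hzσ σ hσ w hw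
  have hz0 : ζ - 1 ≠ 0 := sub_ne_zero.mpr (hζ.ne_one hp.one_lt)
  have hzpos : 0 < ord A p (ζ - 1) := by
    by_contra hcon
    nlinarith [not_lt.mp hcon]
  have hrz : ord A p ((p : Ω) / (ζ - 1) ^ (p - 1)) = 0 := by
    rw [hA.ord_div hA.natCast_ne_zero (pow_ne_zero _ hz0), hA.ord_pow hz0, hA.ord_p,
      Nat.cast_sub hp.one_le, Nat.cast_one, hzord, sub_self]
  have hrz' : (p : Ω) / (ζ - 1) ^ (p - 1) ∈ A := mem_of_ord hA (Or.inr hrz.ge)
  have hrz0 : residue A ⟨_, hrz'⟩ ≠ 0 := fun h0 => by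
    rw [residue_eq_zero_iff, ← ValuationSubring.coe_mem_nonunits_iff, hA.nonunit_iff
      (div_ne_zero hA.natCast_ne_zero (pow_ne_zero _ hz0)), hrz] at h0
    exact lt_irrefl _ h0
  have hbase : ∀ a : Ω, SemilinearAut.baseAut
      (arithmeticGalois (modularFunctionFieldFull (M * p)) σ) a = σ a := fun a => rfl
  obtain ⟨cst, f, hf0, hf⟩ := eq_const_mul_pow_of_scalar S.splitModel hp hA.natCast_ne_zero R
    (deep_div_p hA hc0 hc) hudiv (compatible_inertia S hσ) (fun g => one_smul _ g) (by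
      rw [hbase, map_div₀, map_natCast, div_div_div_cancel_right₀ hA.natCast_ne_zero]
      exact mem_of_ord hA (Or.inr (by
        rw [hA.ord_div ((map_ne_zero σ).mpr hc0) hc0,
          hA.ord_apply (MultRed.inertia_mem_decomposition hσ), sub_self])))
    hz0 (mem_of_ord hA (Or.inr hzpos.le))
    (residue_eq_zero_of_pos hA _ (Or.inr hzpos)) hrz' hrz0 (m := k)
    (by rw [hbase]; exact hη) (by
      show residue A ⟨_, hη⟩ + _ = 0
      rw [hηw, hk, Nat.cast_mul,
        Nat.cast_sub hp.one_le, CharP.cast_eq_zero (ResidueField A) p, Nat.cast_one]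
      ring)
    (Divisor.mem_degZero.mp D'.2) hD'
  have hy0 := eq_zero_of_const_mul_pow hp.ne_zero
    (⟨mul_ne_zero ((smul_ne_zero_iff_ne _).mpr hu0) (pow_ne_zero _ hu0), D', hD'x, hD'⟩ :
      IsFunctionOf p (σ • x + k • x) _) hf0 hf
  have hwk : w • x + k • x = 0 := by
    rw [← add_nsmul, hk, show w + (p - 1) * w = w * p by
      rw [Nat.sub_mul, one_mul, Nat.add_sub_cancel' (Nat.le_mul_of_pos_left _ hp.pos)]; ring,
      mul_nsmul', hpx, nsmul_zero]
  exact add_right_cancel (hy0.trans hwk.symm)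

end Fermat.Agent.Row39

end
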