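import Fermat.Agent.General.GoodPrime.Killed

/-!
# Slopes of a function fixed by the stabiliser of a Kummer generator

If `u` is a function on `X₀(M p)` fixed by the stabiliser with divisor divisible by `p`, the
logarithmic derivatives of the two reductions are regular, hence constants, and the slope relation
makes the order of the reduction at a pair times the exponent the same at all pairs modulo `p`.
A decomposition of the divisor of the reduction whose part prime to `p` lifts to a divisor which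
the Hecke operator multiplies by `ℓ + 1` modulo `p` gives a lifted class.
-/

set_option autoImplicit false

noncomputable section

open IsLocalRing ModularCurve AlgebraicCurve Fermat.Agent.Reduction Fermat.Agent.SemistableRed
  Fermat.Agent.FunctionFieldRR Fermat.Agent.LevelP

namespace Fermat.Agent.Row39

local notation "Qbar" => AlgebraicClosure ℚ

attribute [local instance] HeckeJ0.hasPrincipalDivisors_bar

open MazurPrinciple (pairAt Lifted Tdiv Tfun)

variable {A : ValuationSubring Qbar} {M p : ℕ} [NeZero M] [NeZero p] [Fact p.Prime]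
  [CharP (ResidueField A) p] [IsAlgClosed (ResidueField A)] (S : Setting A M p)
  (K : KummerGen A p)
  [IsFunctionField (ResidueField A) (modularFunctionFieldFullC (ResidueField A) M)]
  [HasPrincipalDivisors (ResidueField A) (modularFunctionFieldFullC (ResidueField A) M)]
  [CharP (modularFunctionFieldFullC (ResidueField A) M) p]

local notation "FF" => modularFunctionFieldBar (M * p)

variable (U : LevelUnit S)

/-- The orders of the reduction at infinity of a fixed function with divisor divisible by `p`. -/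
theorem exists_slope {u : K.fixedField S} (hu : u ≠ 0) {D : Divisor Qbar FF}
    (hdiv : ∀ P, P.ord (u : FF) = (p : ℤ) * D P) :
    ∃ (c : Qbar) (n : ℤ), c ≠ 0 ∧ S.splitModel.Int 0 (c • (u : FF)) ∧
      S.splitModel.red 0 (c • (u : FF)) ≠ 0 ∧
      (∀ P ∉ Descent.pairPoints S.splitModel 0,
        (p : ℤ) ∣ P.ord (S.splitModel.red 0 (c • (u : FF)))) ∧
      ∀ x (hx : x ∈ S.splitModel.pairs),
        (p : ℤ) ∣ x.1.ord (S.splitModel.red 0 (c • (u : FF))) * ((pairAt U hx).e : ℤ) - n := by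
  classical
  have := isFunctionField_level (M * p)
  have := charP_k p (ResidueField A) (modularFunctionFieldFullC (ResidueField A) M)
  set R := K.ramExt S
  have hF : ((p : ℕ) : (descent S).F₀) ≠ 0 := MazurPrinciple.natCast_F₀_ne
  have hloc := K.locallyPthPower S hu hdiv
  obtain ⟨v0, u0, hm0, hn0, he0⟩ := R.exists_normalise hF 0 hu
  obtain ⟨v1, u1, hm1, hn1, he1⟩ := R.exists_normalise hF 1 hu
  have hP0 : ∀ x (hx : x ∈ S.splitModel.pairs), _ := fun x hx => pair_slope_swap R (pairAt U hx) hF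
    (fun j => (pairAt U hx).W_le (K.ramExt_c_mem S j)) hu hloc hm0 hn0 he0 hm1 hn1 he1
  have hP1 : ∀ x (hx : x ∈ S.splitModel.pairs), _ := fun x hx => pair_slope R (pairAt U hx)
    (fun j => (pairAt U hx).W_le (K.ramExt_c_mem S j)) hu hloc hm0 hn0 he0 hm1 hn1 he1
  have hS0 : ∀ P (hP : P ∉ Descent.pairPoints S.splitModel 0), _ := fun P hP =>
    smooth_slope R ((descent S).smoothData hP) hF
      (fun j => ((descent S).smoothData hP).W_le (K.ramExt_c_mem S j)) hu hloc hm0 hn0 he0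
  have hS1 : ∀ P (hP : P ∉ Descent.pairPoints S.splitModel 1), _ := fun P hP =>
    smooth_slope R ((descent S).smoothData hP) hF
      (fun j => ((descent S).smoothData hP).W_le (K.ramExt_c_mem S j)) hu hloc hm1 hn1 he1
  obtain ⟨k0, hk0⟩ := exists_eq_algebraMap_of_forall (k := ResidueField A) (g := dlogRed R 0 u0)
    fun P => ofPlace_mem.mp (by
      by_cases hP : P ∈ Descent.pairPoints S.splitModel 0
      · obtain ⟨x, hx, rfl⟩ := Finset.mem_image.mp hP
        simpa using (hP1 x hx).2.1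
      · exact (hS0 P hP).2)
  obtain ⟨k1, hk1⟩ := exists_eq_algebraMap_of_forall (k := ResidueField A) (g := dlogRed R 1 u1)
    fun P => ofPlace_mem.mp (by
      by_cases hP : P ∈ Descent.pairPoints S.splitModel 1
      · obtain ⟨x, hx, rfl⟩ := Finset.mem_image.mp hP
        simpa using (hP1 x hx).2.2.1
      · exact (hS1 P hP).2)
  obtain ⟨-, hϖ0, -⟩ := K.ord_shift (LevelP.isOver_of_setting S)
  have hcu : ((K.θ - K.θ₀) ^ v0)⁻¹ • (u : FF) = (u0 : FF) :=
    General.GoodPrime.smul_eq_of_zpow_mul (descent S) R hϖ0 (K.ramExt_π S) he0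
  obtain ⟨hi, hr⟩ := General.GoodPrime.red_of_intL S K hm0
  change _ = R.coordRed 0 u0 zeroF at hr
  have hC : ∀ x (hx : x ∈ S.splitModel.pairs),
      ((x.1.ord (R.coordRed 0 u0 zeroF) * (pairAt U hx).e : ℤ) : ResidueField A) =
        (k0 - k1) * R.γ0 / R.γ1 := by
    intro x hx
    have h := hP0 x hx
    rw [hk0, hk1, DVPoint.evF_algebraMap, DVPoint.evF_algebraMap, ofPlace_ord] at h
    rw [h]
    have := R.γ0_ne
    have := R.γ1_ne
    push_cast
    field_simp
  obtain ⟨n, hn⟩ : ∃ n : ℤ, ∀ x (hx : x ∈ S.splitModel.pairs),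
      (p : ℤ) ∣ x.1.ord (R.coordRed 0 u0 zeroF) * (pairAt U hx).e - n := by
    by_cases h : S.splitModel.pairs.Nonempty
    · obtain ⟨y, hy⟩ := h
      exact ⟨y.1.ord (R.coordRed 0 u0 zeroF) * (pairAt U hy).e, fun x hx =>
        (CharP.intCast_eq_zero_iff (ResidueField A) p _).mp (by
          rw [Int.cast_sub, hC x hx, hC y hy, sub_self])⟩
    · exact ⟨0, fun x hx => (h ⟨x, hx⟩).elim⟩
  refine ⟨_, n, inv_ne_zero (zpow_ne_zero v0 hϖ0), hcu ▸ hi, ?_, fun P hP => ?_, fun x hx => ?_⟩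
  · rw [hcu, hr]; exact hn0
  · rw [hcu, hr]; simpa only [ofPlace_ord] using (hS0 P hP).1
  · rw [hcu, hr]; exact hn x hx

variable {S}

/-- A decomposition of the divisor of the reduction gives a lifted class. -/
theorem exists_lifted_of_lift (R : S.model.ReductionMap) {x : JZero (M * p)} {u₁ : FF}
    (hu₁ : OrdinaryT.IsFunctionOf p x u₁) (hci : S.splitModel.Int 0 u₁)
    (hz0 : S.splitModel.red 0 u₁ ≠ 0)
    {E : Divisor (ResidueField A) (modularFunctionFieldFullC (ResidueField A) M)}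
    {DW : Divisor Qbar (modularFunctionFieldBar M)}
    (hdec : dvs (K := ResidueField A) (S.splitModel.red 0 u₁) =
      (p : ℤ) • E + Finsupp.mapDomain R.toFun DW)
    {ℓ : ℕ} [NeZero ℓ] (hℓ : ℓ.Prime) (hℓN : ¬ ℓ ∣ M * p)
    (hT : ∀ Q, (p : ℤ) ∣ Tdiv M ℓ DW Q - ((ℓ : ℤ) + 1) * DW Q) :
    ∃ ξ, Lifted S R p (heckeOperatorAlong Qbar (M * p) ℓ x - (ℓ + 1) • x) ξ := by
  have := isFunctionField_level (M * p)
  have hℓM : ¬ ℓ ∣ M := fun h => hℓN (h.mul_right p)
  have hp0 : (p : ℤ) ≠ 0 := Int.natCast_ne_zero.mpr (NeZero.ne p)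
  obtain ⟨ti, t0, tD⟩ := MazurPrinciple.red0_Tfun R hℓ hℓN hci hz0
  obtain ⟨DE, hDE⟩ := MazurPrinciple.exists_lift_divisor R E
  let G : Divisor Qbar (modularFunctionFieldBar M) :=
    (Tdiv M ℓ DW - ((ℓ : ℤ) + 1) • DW).mapRange (· / (p : ℤ)) (Int.zero_ediv _)
  have hG : (p : ℤ) • G = Tdiv M ℓ DW - ((ℓ : ℤ) + 1) • DW := Finsupp.ext fun Q => by
    show (p : ℤ) * ((Tdiv M ℓ DW - ((ℓ : ℤ) + 1) • DW) Q / (p : ℤ)) = _
    exact Int.mul_ediv_cancel' (by simpa using hT Q)
  have hGdeg : Divisor.degree G = 0 := by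
    have h := congrArg Divisor.degree hG
    rw [map_zsmul, map_sub, map_zsmul, MazurPrinciple.degree_Tdiv hℓ hℓM, smul_eq_mul,
      smul_eq_mul, sub_self] at h
    exact (mul_eq_zero.mp h).resolve_left hp0
  set D₀ := Tdiv M ℓ DE - ((ℓ : ℤ) + 1) • DE + G with hD₀
  have hdeg : D₀ ∈ Divisor.degZero (K := Qbar) (F := modularFunctionFieldBar M) := by
    rw [Divisor.mem_degZero, hD₀, map_add, map_sub, map_zsmul,
      MazurPrinciple.degree_Tdiv hℓ hℓM, smul_eq_mul, sub_self, hGdeg, add_zero]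
  have hTy := tD ((p : ℤ) • DE + DW)
    (by rw [hdec, Finsupp.mapDomain_add, Finsupp.mapDomain_smul, hDE])
  obtain ⟨pi, pr⟩ : S.splitModel.Int 0 (u₁ ^ (ℓ + 1)) ∧
      S.splitModel.red 0 (u₁ ^ (ℓ + 1)) = S.splitModel.red 0 u₁ ^ (ℓ + 1) :=
    ⟨S.splitModel.int_pow hci _, S.splitModel.red_pow hci _⟩
  obtain ⟨ii, ir⟩ := S.splitModel.int_inv pi (by rw [pr]; exact pow_ne_zero _ hz0)
  refine ⟨Pic0.mk ⟨D₀, hdeg⟩, Tfun (M * p) ℓ u₁ * (u₁ ^ (ℓ + 1))⁻¹, ⟨D₀, hdeg⟩, ?_,
    S.splitModel.int_mul 0 _ _ ti ii, ?_, rfl, ?_⟩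
  · rw [sub_eq_add_neg]
    exact (MazurPrinciple.isFunctionOf_Tfun hu₁).mul
      (MazurPrinciple.isFunctionOf_pow hu₁ (ℓ + 1)).inv
  · rw [S.splitModel.red_mul 0 _ _ ti ii, ir, pr]
    exact mul_ne_zero t0 (inv_ne_zero (pow_ne_zero _ hz0))
  · have hsum : Tdiv M ℓ ((p : ℤ) • DE + DW) - ((ℓ : ℤ) + 1) • ((p : ℤ) • DE + DW) =
        (p : ℤ) • D₀ := by
      rw [hD₀, smul_add (p : ℤ), hG, map_add, map_zsmul, smul_sub, smul_add,
        smul_comm ((ℓ : ℤ) + 1) (p : ℤ)]
      abel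
    have h3 := congrArg (Finsupp.mapDomain R.toFun) hsum
    rw [Finsupp.mapDomain_sub, Finsupp.mapDomain_smul, Finsupp.mapDomain_smul, ← hTy,
      Finsupp.mapDomain_add, Finsupp.mapDomain_smul, hDE, ← hdec] at h3
    rw [S.splitModel.red_mul 0 _ _ ti ii, ir, pr]
    refine Eq.trans (Finsupp.ext fun P => ?_) h3
    rw [dvs_apply, P.ord_mul t0 (inv_ne_zero (pow_ne_zero _ hz0)), P.ord_inv, ord_pow,
      Finsupp.sub_apply, Finsupp.smul_apply, smul_eq_mul, dvs_apply, dvs_apply]
    push_cast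
    ring

end Fermat.Agent.Row39

end
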