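import Fermat.Agent.Row39.EllipticT
import Fermat.Agent.Row39.Slope
import Fermat.Agent.SquareOld.Geom.ThetaOrd

/-!
# Classes fixed by a Kummer stabiliser, without a condition on the exponents

For `p ≥ 5` the exponents at the pairs are prime to `p`. For `p = 3` the reduced unit is `j̄²`, so
an exponent divisible by `3` occurs only where `j̄` has order `1` or `2`, that is below an
unramified zero of `j`. If one exponent is divisible by `3` the common slope vanishes modulo `3`,
so the part of the divisor prime to `3` lifts to a combination of unramified zeros of `j`, which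
`T_ℓ` multiplies by `ℓ + 1` modulo `3`.
-/

set_option autoImplicit false

noncomputable section

open IsLocalRing ModularCurve AlgebraicCurve Fermat.Agent.Reduction Fermat.Agent.SemistableRed
  Fermat.Agent.FunctionFieldRR Fermat.Agent.LevelP

namespace Fermat.Agent.Row39

local notation "Qbar" => AlgebraicClosure ℚ

attribute [local instance] HeckeJ0.hasPrincipalDivisors_bar

open MazurPrinciple (GoodHecke toHecke pairAt Lifted Tdiv)
open OrdinaryT (IsFunctionOf killed)

variable {A : ValuationSubring Qbar} {M p : ℕ} [NeZero M] [NeZero p] [Fact p.Prime]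
  [CharP (ResidueField A) p] [IsAlgClosed (ResidueField A)] (S : Setting A M p)
  [IsFunctionField (ResidueField A) (modularFunctionFieldFullC (ResidueField A) M)]
  [HasPrincipalDivisors (ResidueField A) (modularFunctionFieldFullC (ResidueField A) M)]
  [CharP (modularFunctionFieldFullC (ResidueField A) M) p]

local notation "jb" => jbar (ResidueField A) M

variable (U : LevelUnit S)

/-- In characteristic three the exponent times the order of `j̄` is six. -/
theorem pair_e_mul_ord_jbar (hp : p = 3) {x} (hx : x ∈ S.splitModel.pairs) :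
    ((pairAt U hx).e : ℤ) * x.1.ord jb = 6 := by
  have h240 : (240 : ResidueField A) = 0 := by
    exact_mod_cast (CharP.cast_eq_zero_iff (ResidueField A) p 240).mpr (by rw [hp]; norm_num)
  have h := MazurPrinciple.ord_unit_pair U hx
  rw [show S.splitModel.red 0 U.w = jb ^ (p - 1) from
    Subtype.ext (SquareOld.Geom.coe_unit_small S U h240), ord_pow] at h
  subst hp
  norm_num at h
  linarith

omit [CharP (modularFunctionFieldFullC (ResidueField A) M) p] in
include S in
/-- Below an order of `j̄` less than three lies an unramified zero of `j`. -/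
theorem exists_unramified_zero (R : S.model.ReductionMap)
    {Q : Place (ResidueField A) (modularFunctionFieldFullC (ResidueField A) M)}
    (h0 : 0 < Q.ord jb) (h3 : Q.ord jb < 3) :
    ∃ P, R.toFun P = Q ∧ P.ord (Reduction.jBar M) = 1 := by
  classical
  have := isFunctionField_level M
  set Z := dvs (K := Qbar) (Reduction.jBar M) + polarDivisor (Reduction.jBar M) with hZ
  have hZP : ∀ P, Z P = max (P.ord (Reduction.jBar M)) 0 := fun P => by
    rw [hZ, Finsupp.add_apply, dvs_apply, polarDivisor_apply]; omega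
  have hjne : jb ≠ 0 := fun h => by rw [h, Q.ord_zero] at h0; exact h0.false
  have hmap : Finsupp.mapDomain R.toFun Z Q = Q.ord jb := by
    rw [hZ, Finsupp.mapDomain_add, MazurPrinciple.red_polar,
      R.spec _ S.isInt_jBar.1 (by rw [S.isInt_jBar.2]; exact hjne), S.isInt_jBar.2,
      Finsupp.add_apply, dvs_apply, polarDivisor_apply]
    omega
  rw [Finsupp.mapDomain, Finsupp.sum_apply, Finsupp.sum] at hmap
  obtain ⟨P, hP, hPne⟩ := Finset.exists_ne_zero_of_sum_ne_zero (hmap ▸ h0.ne')
  rw [Finsupp.single_apply] at hPne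
  obtain ⟨hPQ, hZne⟩ := ite_ne_right_iff.mp hPne
  refine ⟨P, hPQ, ?_⟩
  have hle : Z P ≤ Q.ord jb := by
    rw [← hmap]
    refine le_trans (by rw [Finsupp.single_apply, if_pos hPQ]) (Finset.single_le_sum
      (f := fun P' => Finsupp.single (R.toFun P') (Z P') Q) (fun P' _ => ?_) hP)
    rw [Finsupp.single_apply]
    split_ifs
    · rw [hZP]; exact le_max_right _ _
    · exact le_rfl
  rw [hZP] at hle hZne
  have hpos : 0 < P.ord (Reduction.jBar M) := by omega
  have hd := X0Analytic.ord_jEl_sub_dvd (N := M) (L := Qbar) qbarToComplex P 0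
    (by simpa [SemistableRed.jEl_eq_jBar] using hpos)
  rw [if_pos rfl, SemistableRed.jEl_eq_jBar, map_zero, sub_zero] at hd
  have := Int.le_of_dvd (by norm_num) hd
  interval_cases h : P.ord (Reduction.jBar M) <;> omega

variable {S}
variable (K : KummerGen A p)

/-- **`T_ℓ - ℓ - 1` brings classes fixed by the stabiliser into the lifted ones.** -/
theorem exists_lifted_fixed (hp3 : 3 ≤ p) (R : S.model.ReductionMap)
    {x : JZero (M * p)} (hx : p • x = 0) (hfix : ∀ σ ∈ K.H, σ • x = x)
    {ℓ : ℕ} [NeZero ℓ] (hℓ : ℓ.Prime) (hℓN : ¬ ℓ ∣ M * p) :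
    ∃ ξ, Lifted S R p (heckeOperatorAlong Qbar (M * p) ℓ x - (ℓ + 1) • x) ξ := by
  classical
  obtain ⟨U⟩ := nonempty_levelUnit S
  have hp : p.Prime := Fact.out
  by_cases hcop : ∀ y (hy : y ∈ S.splitModel.pairs), ¬ p ∣ (pairAt U hy).e
  · exact General.GoodPrime.exists_lifted_fixed S K U R hcop hx hfix hℓ hℓN
  push Not at hcop
  obtain ⟨x₀, hx₀, he₀⟩ := hcop
  have hp3' : p = 3 := by
    have h12 : p ∣ 2 * 2 * 3 := he₀.trans (MazurPrinciple.pair_e_dvd U hx₀)
    rcases hp.dvd_mul.mp h12 with h' | h'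
    · rcases hp.dvd_mul.mp h' with h'' | h'' <;>
        · have := Nat.le_of_dvd (by norm_num) h''; omega
    · exact (Nat.prime_dvd_prime_iff_eq hp Nat.prime_three).mp h'
  have := isFunctionField_level (M * p)
  obtain ⟨u, hufix, hu⟩ := OrdinaryT.exists_fixed_function K.fixer (NeZero.ne p) x hx hfix
  obtain ⟨hu0, D, hDx, hDu⟩ := hu
  let uL : K.fixedField S := ⟨u, (K.mem_fixedField S).mpr hufix⟩
  have huL : uL ≠ 0 := fun e => hu0 (congrArg Subtype.val e)
  obtain ⟨c, n, hc, hci, hz0, hsmooth, hpair⟩ := exists_slope S K U huL hDu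
  set z := S.splitModel.red 0 (c • (uL : modularFunctionFieldBar (M * p)))
  have hn : (p : ℤ) ∣ n := by
    have h2 : (p : ℤ) ∣ x₀.1.ord z * ((pairAt U hx₀).e : ℤ) :=
      (Int.natCast_dvd_natCast.mpr he₀).mul_left _
    simpa using h2.sub (hpair x₀ hx₀)
  -- the unramified zeros of `j` below the pairs of exponent divisible by `p`
  have hsel : ∀ y : {y // y ∈ S.splitModel.pairs}, ∃ P,
      p ∣ (pairAt U y.2).e → R.toFun P = y.1.1 ∧ P.ord (Reduction.jBar M) = 1 := fun y => by
    by_cases hye : p ∣ (pairAt U y.2).e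
    · have h6 := pair_e_mul_ord_jbar S U hp3' y.2
      obtain ⟨t, ht⟩ := hye
      rw [ht] at h6
      push_cast at h6
      rw [show (p : ℤ) = 3 by exact_mod_cast hp3'] at h6
      have h2 : (t : ℤ) * y.1.1.ord jb = 2 := by linarith
      have ht0 : 0 < (t : ℤ) := by
        rcases Nat.eq_zero_or_pos t with h | h
        · rw [h] at h2; simp at h2
        · exact_mod_cast h
      have hpos : 0 < y.1.1.ord jb := by
        by_contra h
        push Not at h
        nlinarith
      obtain ⟨P, hP⟩ := exists_unramified_zero S R hpos (by nlinarith)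
      exact ⟨P, fun _ => hP⟩
    · obtain ⟨P, -⟩ := MazurPrinciple.redMap_surjective R y.1.1
      exact ⟨P, fun h => absurd h hye⟩
  choose P hP using hsel
  let T := S.splitModel.pairs.attach.filter fun y => p ∣ (pairAt U y.2).e
  let DW : Divisor Qbar (modularFunctionFieldBar M) :=
    ∑ y ∈ T, Finsupp.single (P y) (y.1.1.ord z)
  have hW : ∀ Q, Finsupp.mapDomain R.toFun DW Q =
      ∑ y ∈ T, if y.1.1 = Q then y.1.1.ord z else 0 := fun Q => by
    rw [show Finsupp.mapDomain R.toFun DW = ∑ y ∈ T, Finsupp.single y.1.1 (y.1.1.ord z) by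
      rw [Finsupp.mapDomain_finsetSum]
      exact Finset.sum_congr rfl fun y hy => by
        rw [Finsupp.mapDomain_single, (hP y (Finset.mem_filter.mp hy).2).1],
      Finsupp.coe_finsetSum, Finset.sum_apply]
    exact Finset.sum_congr rfl fun y _ => Finsupp.single_apply
  let E : Divisor (ResidueField A) (modularFunctionFieldFullC (ResidueField A) M) :=
    (dvs (K := ResidueField A) z - Finsupp.mapDomain R.toFun DW).mapRange (· / (p : ℤ))
      (Int.zero_ediv _)
  have hinj : ∀ y y' : {y // y ∈ S.splitModel.pairs}, y.1.1 = y'.1.1 → y = y' := fun y y' h =>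
    Subtype.ext (Prod.ext h (SplitModel.Pair.right_unique S.splitModel
      (h ▸ S.splitModel.mem_pairs.mp y.2) (S.splitModel.mem_pairs.mp y'.2)))
  have hdvd : ∀ Q, (p : ℤ) ∣ Q.ord z - Finsupp.mapDomain R.toFun DW Q := by
    intro Q
    rw [hW]
    by_cases hQ : Q ∈ Descent.pairPoints S.splitModel 0
    · obtain ⟨y, hy, rfl⟩ := Finset.mem_image.mp hQ
      simp only [↓reduceIte]
      by_cases hye : p ∣ (pairAt U hy).e
      · rw [Finset.sum_eq_single_of_mem (⟨y, hy⟩ : {y // y ∈ S.splitModel.pairs})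
          (Finset.mem_filter.mpr ⟨Finset.mem_attach _ _, hye⟩)
          fun b _ hb => if_neg fun h => hb (hinj _ _ h), if_pos rfl, sub_self]
        exact dvd_zero _
      · rw [Finset.sum_eq_zero fun b hb => if_neg fun h => hye (by
            obtain rfl := hinj b ⟨y, hy⟩ h
            exact (Finset.mem_filter.mp hb).2), sub_zero]
        have h := (hpair y hy).add hn
        rw [sub_add_cancel] at h
        exact ((Nat.prime_iff_prime_int.mp hp).dvd_or_dvd h).resolve_right fun h' =>
          hye (Int.natCast_dvd_natCast.mp h')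
    · rw [Finset.sum_eq_zero fun b _ => if_neg fun h =>
        hQ (Finset.mem_image.mpr ⟨b.1, b.2, by simpa using h⟩), sub_zero]
      exact hsmooth Q hQ
  have hdec : dvs (K := ResidueField A) z = (p : ℤ) • E + Finsupp.mapDomain R.toFun DW := by
    refine Finsupp.ext fun Q => ?_
    rw [Finsupp.add_apply, Finsupp.smul_apply, smul_eq_mul, dvs_apply]
    show _ = (p : ℤ) * ((dvs (K := ResidueField A) z - Finsupp.mapDomain R.toFun DW) Q / (p : ℤ)) + _
    rw [Finsupp.sub_apply, dvs_apply, Int.mul_ediv_cancel' (hdvd Q), sub_add_cancel]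
  have hℓM : ¬ ℓ ∣ M := fun h => hℓN (h.mul_right p)
  refine exists_lifted_of_lift R (MazurPrinciple.isFunctionOf_smul ⟨hu0, D, hDx, hDu⟩ hc) hci hz0
    hdec hℓ hℓN fun Q => ?_
  have hsum : Tdiv M ℓ DW Q - ((ℓ : ℤ) + 1) * DW Q = ∑ y ∈ T, y.1.1.ord z *
      (Tdiv M ℓ (Finsupp.single (P y) 1) Q - ((ℓ : ℤ) + 1) * Finsupp.single (P y) 1 Q) := by
    simp only [DW, map_sum, Finsupp.coe_finsetSum, Finset.sum_apply, Finset.mul_sum,
      ← Finset.sum_sub_distrib]
    refine Finset.sum_congr rfl fun y _ => ?_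
    rw [show Finsupp.single (P y) (y.1.1.ord z) = y.1.1.ord z • Finsupp.single (P y) (1 : ℤ) by
      rw [Finsupp.smul_single, smul_eq_mul, mul_one], map_zsmul, Finsupp.smul_apply,
      Finsupp.smul_apply, smul_eq_mul, smul_eq_mul]
    ring
  rw [hsum]
  refine Finset.dvd_sum fun y hy => Dvd.dvd.mul_left ?_ _
  have h := tdiv_single_elliptic hℓ hℓM (hP y (Finset.mem_filter.mp hy).2).2 Q
  rwa [hp3']

variable (S)

include K in
/-- **The kernel on the component at `∞`.** -/
theorem mem_killed_zero (hp3 : 3 ≤ p)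
    {x : JZero (M * p)} (hx : p • x = 0) (hfix : ∀ σ ∈ K.H, σ • x = x)
    {ℓ : ℕ} [NeZero ℓ] (hℓ : ℓ.Prime) (hℓN : ¬ ℓ ∣ M * p) (Q : GoodHecke (M * p))
    (hQ : ∀ (n : ℕ) (ξ : JZero M), p ^ n • ξ = 0 →
      (letI := heckeModuleBar M
       toHecke Q • ξ) = 0) :
    (letI := heckeModuleBar (M * p);
      toHecke Q • (heckeOperatorAlong Qbar (M * p) ℓ x - (ℓ + 1) • x)) ∈
        killed S.splitModel 0 p := by
  obtain ⟨h, R, hR⟩ := MazurPrinciple.exists_redMap_modL S
  obtain ⟨ξ, hξ⟩ := exists_lifted_fixed K hp3 R hx hfix hℓ hℓN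
  have h1 := hξ.poly Q
  let := heckeModuleBar M
  refine General.GoodPrime.mem_killed_of_red S hR (NeZero.ne p) h1 ?_
  exact General.GoodPrime.reductionModL_eq_zero S
    (DistribSMul.toAddMonoidHom (JZero M) (toHecke Q))
    (fun g y => General.GoodPrime.hecke_galois (toHecke Q) g y) hQ
    (General.GoodPrime.nsmul_reduction_eq_zero S hR h1)

end Fermat.Agent.Row39

end
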