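import Fermat.Agent.Row39.KernelCore
import Fermat.Agent.Row39.SlopeThree
import Fermat.Agent.OrdinaryT.HeckeAct
import Fermat.Agent.MazurPrinciple.Main
import Fermat.Agent.MazurPrinciple.Eigen

/-!
# Hecke polynomials killed at level `M` on the fixed and inertial parts of level `M p`

On an eigenclass fixed by the stabiliser of a Kummer generator a Hecke polynomial killing
`J₀(M)[p^∞]` vanishes; on the moved part `τ x - x` of an eigenclass it leaves classes multiplied by
the cyclotomic character.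
-/

set_option autoImplicit false

noncomputable section

open IsLocalRing ModularCurve AlgebraicCurve Fermat.Agent.Reduction Fermat.Agent.SemistableRed
  Fermat.Agent.FunctionFieldRR Fermat.Agent.LevelP

namespace Fermat.Agent.Row39

local notation "Qbar" => AlgebraicClosure ℚ

attribute [local instance] HeckeJ0.hasPrincipalDivisors_bar

open MazurPrinciple (GoodHecke toHecke wJ)
open OrdinaryT (killed newKilled galois_nsmul galois_zsmul galois_zero)

variable {A : ValuationSubring Qbar} {M p : ℕ} [NeZero M] [NeZero p] [Fact p.Prime]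
  [CharP (ResidueField A) p] [IsAlgClosed (ResidueField A)] (S : Setting A M p)

/-- `T_ℓ` commutes with the Hecke action. -/
theorem heckeOperatorAlong_smul {N : ℕ} [NeZero N] {l : ℕ} [NeZero l] (hl : l.Prime)
    (t : HeckeAlg) (x : JZero N) :
    (letI := heckeModuleBar N
     heckeOperatorAlong Qbar N l (t • x) = t • heckeOperatorAlong Qbar N l x) := by
  let := heckeModuleBar N
  have h : ∀ z : JZero N, heckeOperatorAlong Qbar N l z = heckeGen ⟨l, hl⟩ • z := fun z =>
    (heckeModuleBar_heckeGen_smul (HeckeJ0.heckeOperatorsCommuteBar N) ⟨l, hl⟩ z).symm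
  rw [h, h]
  exact smul_comm _ _ _

theorem toHecke_smul_nsmul {N : ℕ} [NeZero N] (t : HeckeAlg) (n : ℕ) (x : JZero N) :
    (letI := heckeModuleBar N; n • (t • x) = t • (n • x)) := by
  let := heckeModuleBar N
  exact (map_nsmul (DistribSMul.toAddMonoidHom (JZero N) t) n x).symm

theorem toHecke_smul_zsmul {N : ℕ} [NeZero N] (t : HeckeAlg) (n : ℤ) (x : JZero N) :
    (letI := heckeModuleBar N; n • (t • x) = t • (n • x)) := by
  let := heckeModuleBar N
  exact (map_zsmul (DistribSMul.toAddMonoidHom (JZero N) t) n x).symm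

/-- The norms commute with the Hecke polynomials away from `M p`. -/
theorem normMaps_heckePoly (P : GoodHecke (M * p * p)) (b : Bool) :
    ∀ {k : ℕ} {x : JZero (M * p)}, p ^ k • x = 0 →
      normMaps M p b (letI := heckeModuleBar (M * p); toHecke P • x) =
        (letI := heckeModuleBar M; toHecke P • normMaps M p b x) := by
  let := heckeModuleBar (M * p)
  let := heckeModuleBar M
  induction P using MvPolynomial.induction_on with
  | C a =>
    intro k x _
    rw [MazurPrinciple.toHecke_C, heckeModuleBar_C_smul, heckeModuleBar_C_smul, map_zsmul]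
  | add P Q hP hQ =>
    intro k x hx
    rw [MazurPrinciple.toHecke_add, add_smul, add_smul, map_add, hP hx, hQ hx]
  | mul_X P r hP =>
    intro k x hx
    have hx' : p ^ k • ((heckeGen r.1) • x) = 0 := by
      rw [toHecke_smul_nsmul, hx, smul_zero]
    have hT : normMaps M p b (heckeGen r.1 • x) = heckeGen r.1 • normMaps M p b x := by
      rw [heckeModuleBar_heckeGen_smul (HeckeJ0.heckeOperatorsCommuteBar (M * p)),
        heckeModuleBar_heckeGen_smul (HeckeJ0.heckeOperatorsCommuteBar M)]
      obtain ⟨φ, h1, h2⟩ := OrdinaryT.exists_frobenius_pair (K := M * p) (K' := M)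
        (T := {s : ℕ | s ∣ M * p * p}) (p := p) (dvd_mul_left p (M * p))
        (fun s _ hs => hs.mul_right p) (fun s _ hs => (hs.mul_right p).mul_right p)
        ⟨r.1, r.2⟩
      rw [h1 x ⟨k, hx⟩, h2 _ ⟨k, by rw [← map_nsmul, hx, map_zero]⟩, map_add, map_nsmul,
        normMaps_equivariant M p b, normMaps_equivariant M p b]
    rw [show toHecke (P * MvPolynomial.X r) = toHecke P * heckeGen r.1 by
      rw [MazurPrinciple.toHecke_mul_X, mul_comm], mul_smul, mul_smul, hP hx', hT]

variable [IsFunctionField (ResidueField A) (modularFunctionFieldFullC (ResidueField A) M)]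
  [HasPrincipalDivisors (ResidueField A) (modularFunctionFieldFullC (ResidueField A) M)]
  [CharP (modularFunctionFieldFullC (ResidueField A) M) p]

omit [HasPrincipalDivisors (ResidueField A) (modularFunctionFieldFullC (ResidueField A) M)]
  [CharP (modularFunctionFieldFullC (ResidueField A) M) p] in
/-- Classes killed on both components lie in the new kernel. -/
theorem mem_newKilled_of_killed {x : JZero (M * p)} (h0 : x ∈ killed S.splitModel 0 p)
    (h1 : x ∈ killed S.splitModel 1 p) : x ∈ newKilled S p := by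
  have := isFunctionField_level (M * p)
  obtain ⟨u, hu, hu'⟩ := h0
  refine ⟨u, hu, fun i => ?_⟩
  obtain rfl | rfl : i = 0 ∨ i = 1 := by omega
  · exact hu'
  · exact (OrdinaryT.mem_killed_iff hu).mp h1

/-- `T_ℓ - (ℓ + 1)` to the power `p - 1` fixes an eigenclass of eigenvalue not `ℓ + 1`. -/
theorem iterate_eq_self {l : ℕ} [NeZero l] {a : ℤ} {y : JZero (M * p)} (hy : p • y = 0)
    (hT : heckeOperatorAlong Qbar (M * p) l y = a • y) (ha : ¬ (p : ℤ) ∣ a - (l + 1)) :
    (fun z => heckeOperatorAlong Qbar (M * p) l z - (l + 1) • z)^[p - 1] y = y := by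
  have hp : p.Prime := Fact.out
  set c : ℤ := a - (l + 1) with hc
  have hj : ∀ j, (fun z => heckeOperatorAlong Qbar (M * p) l z - (l + 1) • z)^[j] y =
      c ^ j • y := fun j => by
    induction j with
    | zero => rw [Function.iterate_zero_apply, pow_zero, one_zsmul]
    | succ j ih =>
      rw [Function.iterate_succ_apply', ih, map_zsmul, hT, smul_smul, pow_succ,
        ← natCast_zsmul (c ^ j • y), smul_smul, ← sub_smul]
      congr 1
      rw [hc]; push_cast; ring
  obtain ⟨t, ht⟩ : (p : ℤ) ∣ c ^ (p - 1) - 1 :=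
    (Int.ModEq.pow_card_sub_one_eq_one hp
      ((Nat.prime_iff_prime_int.mp hp).coprime_iff_not_dvd.mpr ha).symm).symm.dvd
  rw [hj, show c ^ (p - 1) = t * p + 1 by linarith, add_zsmul, mul_zsmul, natCast_zsmul, hy,
    smul_zero, zero_add, one_zsmul]

include S in
/-- **A Hecke polynomial killing level `M` kills the eigenclasses fixed by the stabiliser.** -/
theorem heckePoly_eq_zero_of_fixed (K : KummerGen A p) (hp3 : 3 ≤ p)
    {x : JZero (M * p)} (hx : p • x = 0)
    (hfix : ∀ σ ∈ K.H, σ • x = x) {l : ℕ} [NeZero l] (hl : l.Prime) (hlN : ¬ l ∣ M * p)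
    {a : ℤ} (hT : heckeOperatorAlong Qbar (M * p) l x = a • x)
    (ha : ¬ (p : ℤ) ∣ a - (l + 1)) (P : GoodHecke (M * p * p))
    (hP : ∀ (n : ℕ) (ξ : JZero M), p ^ n • ξ = 0 →
      (letI := heckeModuleBar M; toHecke P • ξ) = 0) :
    (letI := heckeModuleBar (M * p); toHecke P • x) = 0 := by
  classical
  let := heckeModuleBar (M * p)
  have := Fact.mk hl
  have hA := OrdinaryT.isOver_of_setting S
  have hp : p.Prime := Fact.out
  set c : ℤ := a - (l + 1) with hc
  have hlN' : ¬ l ∣ M * p * p := fun h => by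
    rcases hl.dvd_mul.mp h with h | h
    · exact hlN h
    · exact hlN (h.mul_left M)
  set Q : GoodHecke (M * p) := MvPolynomial.rename
    (fun r : {r : Nat.Primes // ¬ (r : ℕ) ∣ M * p * p} =>
      (⟨r.1, fun h' => r.2 (h'.trans (dvd_mul_right _ p))⟩ :
        {r : Nat.Primes // ¬ (r : ℕ) ∣ M * p})) P
  have hQP : toHecke Q = toHecke P := MazurPrinciple.toHecke_rename (dvd_mul_right _ p) P
  have key : ∀ z : JZero (M * p), p • z = 0 → (∀ σ ∈ K.H, σ • z = z) →
      heckeOperatorAlong Qbar (M * p) l z = a • z →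
      c • (toHecke P • z) ∈ killed S.splitModel 0 p := fun z hz hzfix hzT => by
    have h := mem_killed_zero S K hp3 hz hzfix hl hlN Q (fun n ξ hξ => by rw [hQP]; exact hP n ξ hξ)
    rwa [hQP, hzT, ← natCast_zsmul z, ← sub_smul, ← toHecke_smul_zsmul, Nat.cast_add,
      Nat.cast_one] at h
  have hx1 : p ^ 1 • x = 0 := by rw [pow_one, hx]
  have h0 := key x hx hfix hT
  have h1 : c • (toHecke P • x) ∈ killed S.splitModel 1 p := by
    refine MazurPrinciple.mem_killed_one_of_wJ ?_
    rw [map_zsmul, MazurPrinciple.wJ_heckePoly (p := p) P hx1]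
    refine key _ (by rw [← map_nsmul, hx, map_zero])
      (fun σ hσ => by rw [← MazurPrinciple.isGaloisEquivariant_wJ, hfix σ hσ]) ?_
    rw [← MazurPrinciple.map_heckeOperatorAlong (p := p) MazurPrinciple.isGaloisEquivariant_wJ hl
      hlN' hx1, hT, map_zsmul]
  set y := toHecke P • x with hydef
  have hy : p • y = 0 := by rw [hydef, toHecke_smul_nsmul, hx, smul_zero]
  obtain ⟨e, d, hd⟩ : ∃ e d : ℤ, e * c + d * p = 1 :=
    ((Nat.prime_iff_prime_int.mp hp).coprime_iff_not_dvd.mpr ha).symm
  have hymem : y ∈ newKilled S p := by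
    have h := zsmul_mem (mem_newKilled_of_killed S h0 h1) e
    rwa [smul_smul, show e * c = 1 - d * p by linarith, sub_smul, one_zsmul, mul_zsmul,
      natCast_zsmul, hy, smul_zero, sub_zero] at h
  obtain ⟨ζ, hζ⟩ := HasEnoughRootsOfUnity.exists_primitiveRoot Qbar p
  obtain ⟨σ₀, hσ₀, hmove⟩ := K.exists_move_zeta hA hp3 hζ
  refine OrdinaryT.eq_zero_of_mem_newKilled S hymem (σ₀ := σ₀) hσ₀.1 ?_
    ⟨ζ, hζ.pow_eq_one, hmove⟩ (fun b => ?_) hlN (m := p - 1) (by omega)
    (iterate_eq_self hy ?_ ha)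
  · rw [hydef, ← General.GoodPrime.hecke_galois, hfix σ₀ hσ₀]
  · rw [hydef, normMaps_heckePoly P b hx1]
    exact hP 1 _ (by rw [← map_nsmul, hx1, map_zero])
  · rw [hydef, heckeOperatorAlong_smul hl, hT, toHecke_smul_zsmul]

omit [IsFunctionField (ResidueField A) (modularFunctionFieldFullC (ResidueField A) M)]
  [HasPrincipalDivisors (ResidueField A) (modularFunctionFieldFullC (ResidueField A) M)]
  [CharP (modularFunctionFieldFullC (ResidueField A) M) p] in
include S in
/-- **The moved part of an eigenclass is cyclotomic after a Hecke polynomial killing level `M`.** -/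
theorem smul_heckePoly_sub_eq {x : JZero (M * p)} (hx : p • x = 0) {l : ℕ} [NeZero l]
    (hl : l.Prime) (hlN : ¬ l ∣ M * p) {a : ℤ}
    (hT : heckeOperatorAlong Qbar (M * p) l x = a • x) (ha : ¬ (p : ℤ) ∣ a - (l + 1))
    (P : GoodHecke (M * p * p))
    (hP : ∀ (n : ℕ) (ξ : JZero M), p ^ n • ξ = 0 →
      (letI := heckeModuleBar M; toHecke P • ξ) = 0)
    {τ σ : Qbar ≃ₐ[ℚ] Qbar} (hτ : τ ∈ A.inertiaSubgroupIn ℚ) (hσ : σ ∈ A.inertiaSubgroupIn ℚ)
    {ζ : Qbar} (hζ : IsPrimitiveRoot ζ p) {w : ℕ} (hw : σ ζ = ζ ^ w) :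
    (letI := heckeModuleBar (M * p);
      σ • (toHecke P • (τ • x - x)) = w • (toHecke P • (τ • x - x))) := by
  classical
  let := heckeModuleBar (M * p)
  have := Fact.mk hl
  have hp : p.Prime := Fact.out
  have h2 : 2 ≤ p := hp.two_le
  have hx1 : p ^ 1 • x = 0 := by rw [pow_one, hx]
  set y₀ := toHecke P • x with hy₀def
  have hy₀ : p • y₀ = 0 := by rw [hy₀def, toHecke_smul_nsmul, hx, smul_zero]
  have hy : toHecke P • (τ • x - x) = τ • y₀ - y₀ := by
    rw [smul_sub, hy₀def, General.GoodPrime.hecke_galois]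
  have hTy₀ : heckeOperatorAlong Qbar (M * p) l y₀ = a • y₀ := by
    rw [hy₀def, heckeOperatorAlong_smul hl, hT, toHecke_smul_zsmul]
  have hTτ : heckeOperatorAlong Qbar (M * p) l (τ • y₀) = a • (τ • y₀) := by
    refine ((HeckeJ0.heckeGaloisEquivariant (M * p)) τ ⟨l, hl⟩ y₀).trans ?_
    show τ • heckeOperatorAlong Qbar (M * p) l y₀ = _
    rw [hTy₀]
    exact (galois_zsmul τ a y₀)
  rw [hy]
  refine smul_eq_of_mem_newKilled S (OrdinaryT.smul_sub_mem_newKilled S hτ hy₀) (fun b => ?_) hlN
    (m := p - 1) (by omega) (iterate_eq_self ?_ ?_ ha) hσ hζ hw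
  · have h0 : normMaps M p b y₀ = 0 := by
      rw [hy₀def, normMaps_heckePoly P b hx1]
      exact hP 1 _ (by rw [← map_nsmul, hx1, map_zero])
    rw [map_sub, normMaps_equivariant M p b, h0, galois_zero, sub_zero]
  · rw [nsmul_sub, ← galois_nsmul, hy₀, galois_zero, sub_zero]
  · rw [map_sub, hTy₀, hTτ, zsmul_sub]

end Fermat.Agent.Row39

end
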